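import Mathlib

/-!
# 2×2 matrices satisfying a monic quadratic relation (helper31, P-ES)

If `M * M - a • M + l • 1 = 0` for a 2×2 matrix over a domain, then either `M` is scalar or
`tr M = a` and `det M = l`; in the second case `charpoly M = X² - a X + l`.
-/

set_option autoImplicit false

open Polynomial Matrix

namespace Fermat.Agent.H31

variable {O : Type*} [CommRing O]

/-- A 2×2 matrix is scalar iff its off-diagonal entries vanish and the diagonal ones agree. -/
theorem mat2_eq_smul_one_iff (M : Matrix (Fin 2) (Fin 2) O) (c : O) :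
    M = c • (1 : Matrix (Fin 2) (Fin 2) O) ↔
      M 0 0 = c ∧ M 1 1 = c ∧ M 0 1 = 0 ∧ M 1 0 = 0 := by
  constructor
  · rintro rfl
    simp
  · rintro ⟨h00, h11, h01, h10⟩
    ext i j
    fin_cases i <;> fin_cases j <;> simp [h00, h11, h01, h10]

/-- Cayley–Hamilton for 2×2 matrices, entrywise. -/
theorem mat2_cayley_hamilton (M : Matrix (Fin 2) (Fin 2) O) :
    M * M - M.trace • M + M.det • (1 : Matrix (Fin 2) (Fin 2) O) = 0 := by
  ext i j
  fin_cases i <;> fin_cases j <;>
    simp [Matrix.mul_apply, Fin.sum_univ_two, Matrix.trace_fin_two, Matrix.det_fin_two] <;> ring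

/-- Key dichotomy: a 2×2 matrix over a domain killed by `X² - a X + l` is scalar, or has
trace `a` and determinant `l`. -/
theorem mat2_scalar_or_trace_det [IsDomain O] (M : Matrix (Fin 2) (Fin 2) O) (a l : O)
    (h : M * M - a • M + l • (1 : Matrix (Fin 2) (Fin 2) O) = 0) :
    (∃ c : O, M = c • (1 : Matrix (Fin 2) (Fin 2) O)) ∨ (M.trace = a ∧ M.det = l) := by
  have hCH := mat2_cayley_hamilton M
  -- difference of the two relations
  have hdiff : (a - M.trace) • M = (l - M.det) • (1 : Matrix (Fin 2) (Fin 2) O) := by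
    have : (a - M.trace) • M - (l - M.det) • (1 : Matrix (Fin 2) (Fin 2) O)
        = (M * M - M.trace • M + M.det • (1 : Matrix (Fin 2) (Fin 2) O))
          - (M * M - a • M + l • (1 : Matrix (Fin 2) (Fin 2) O)) := by
      simp only [sub_smul]
      abel
    rw [← sub_eq_zero, this, hCH, h, sub_zero]
  by_cases hat : a = M.trace
  · right
    refine ⟨hat.symm, ?_⟩
    have h00 := congrFun (congrFun hdiff 0) 0
    simp [hat] at h00
    exact (sub_eq_zero.mp h00.symm).symm
  · left
    have hne : a - M.trace ≠ 0 := sub_ne_zero.mpr hat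
    have e01 := congrFun (congrFun hdiff 0) 1
    have e10 := congrFun (congrFun hdiff 1) 0
    have e00 := congrFun (congrFun hdiff 0) 0
    have e11 := congrFun (congrFun hdiff 1) 1
    simp at e01 e10 e00 e11
    have h01 : M 0 1 = 0 := by
      rcases e01 with h | h
      · exact absurd h hne
      · exact h
    have h10 : M 1 0 = 0 := by
      rcases e10 with h | h
      · exact absurd h hne
      · exact h
    have h0011 : M 0 0 = M 1 1 := by
      have : (a - M.trace) * M 0 0 = (a - M.trace) * M 1 1 := by rw [e00, e11]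
      exact mul_left_cancel₀ hne this
    exact ⟨M 0 0, (mat2_eq_smul_one_iff M (M 0 0)).mpr ⟨rfl, h0011.symm, h01, h10⟩⟩

/-- The characteristic polynomial of a 2×2 matrix with trace `a` and determinant `l`. -/
theorem mat2_charpoly_of_trace_det [Nontrivial O] (M : Matrix (Fin 2) (Fin 2) O) (a l : O)
    (ht : M.trace = a) (hd : M.det = l) :
    M.charpoly = X ^ 2 - C a * X + C l := by
  rw [Matrix.charpoly_fin_two, ht, hd]

/-- Scalar case: if `M = c • 1`, `c² = l`, `c² - a c + l = 0` and `l ≠ 0` in a domain, then
`M` has trace `a` and determinant `l`. -/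
theorem mat2_trace_det_of_scalar [IsDomain O] (M : Matrix (Fin 2) (Fin 2) O) (a l c : O)
    (hM : M = c • (1 : Matrix (Fin 2) (Fin 2) O)) (hc : c ^ 2 = l)
    (hq : c ^ 2 - a * c + l = 0) (hl : l ≠ 0) :
    M.trace = a ∧ M.det = l := by
  have hc0 : c ≠ 0 := by
    rintro rfl
    exact hl (by simpa using hc.symm)
  have h2 : c * (2 * c - a) = 0 := by
    have : c * (2 * c - a) = (c ^ 2 - a * c + l) + (c ^ 2 - l) := by ring
    rw [this, hq, hc, sub_self, add_zero]
  have h3 : 2 * c - a = 0 := (mul_eq_zero.mp h2).resolve_left hc0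
  subst hM
  constructor
  · simp
    linear_combination h3
  · simp
    linear_combination hc

/-- The quadratic relation for a scalar matrix is the relation for the scalar. -/
theorem mat2_scalar_quadratic [Nontrivial O] (a l c : O)
    (h : (c • (1 : Matrix (Fin 2) (Fin 2) O)) * (c • 1) - a • (c • (1 : Matrix (Fin 2) (Fin 2) O))
      + l • (1 : Matrix (Fin 2) (Fin 2) O) = 0) :
    c ^ 2 - a * c + l = 0 := by
  have h00 := congrFun (congrFun h 0) 0
  simp at h00
  linear_combination h00

end Fermat.Agent.H31
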