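import Mathlib
import Fermat.Prelude.Def_EllipticCurve_FrobeniusTrace

/-!
# Frobenius lifts and inertia on roots of unity (helper31, P-ES)

For a valuation subring `A` of `L` lying over `ℓ` and `m` prime to `ℓ`:
* a Frobenius lift at `A` raises every `m`-th root of unity to the `ℓ`-th power;
* the inertia group at `A` fixes every `m`-th root of unity.
-/

set_option autoImplicit false

namespace Fermat.Agent.H31

variable {K L : Type*} [Field K] [Field L] [Algebra K L]

/-- Integers have valuation at most one. -/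
theorem valuation_intCast_le_one (A : ValuationSubring L) (n : ℤ) : A.valuation (n : L) ≤ 1 := by
  rw [ValuationSubring.valuation_le_one_iff]
  exact intCast_mem A n

/-- A natural number coprime to `ℓ` is a unit of a valuation ring lying over `ℓ`. -/
theorem valuation_natCast_eq_one_of_coprime (A : ValuationSubring L) {ℓ m : ℕ}
    (hℓ : A.LiesOverPrime ℓ) (hcop : Nat.Coprime m ℓ) : A.valuation (m : L) = 1 := by
  have hvℓ : A.valuation (ℓ : L) < 1 := (ValuationSubring.mem_nonunits_iff A).mp hℓ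
  refine le_antisymm ?_ ?_
  · have := valuation_intCast_le_one A (m : ℤ)
    rwa [Int.cast_natCast] at this
  · by_contra hlt
    push Not at hlt
    -- Bezout
    have hbez : (m : ℤ) * Nat.gcdA m ℓ + (ℓ : ℤ) * Nat.gcdB m ℓ = 1 := by
      have := Nat.gcd_eq_gcd_ab m ℓ
      rw [hcop] at this
      exact_mod_cast this.symm
    have hbezL : (m : L) * ((Nat.gcdA m ℓ : ℤ) : L) + (ℓ : L) * ((Nat.gcdB m ℓ : ℤ) : L) = 1 := by
      have := congrArg (Int.cast : ℤ → L) hbez
      push_cast at this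
      exact this
    have h1 : A.valuation ((m : L) * ((Nat.gcdA m ℓ : ℤ) : L)) < 1 := by
      rw [map_mul]
      calc A.valuation (m : L) * A.valuation ((Nat.gcdA m ℓ : ℤ) : L)
          ≤ A.valuation (m : L) * 1 := by
            gcongr
            exact valuation_intCast_le_one A _
        _ = A.valuation (m : L) := mul_one _
        _ < 1 := hlt
    have h2 : A.valuation ((ℓ : L) * ((Nat.gcdB m ℓ : ℤ) : L)) < 1 := by
      rw [map_mul]
      calc A.valuation (ℓ : L) * A.valuation ((Nat.gcdB m ℓ : ℤ) : L)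
          ≤ A.valuation (ℓ : L) * 1 := by
            gcongr
            exact valuation_intCast_le_one A _
        _ = A.valuation (ℓ : L) := mul_one _
        _ < 1 := hvℓ
    have h3 : A.valuation (1 : L) < 1 := by
      rw [← hbezL]
      exact lt_of_le_of_lt (A.valuation.map_add _ _) (max_lt h1 h2)
    simp at h3

/-- Roots of unity have valuation one. -/
theorem valuation_eq_one_of_pow_eq_one (A : ValuationSubring L) {m : ℕ} (hm : m ≠ 0) {ζ : L}
    (hζ : ζ ^ m = 1) : A.valuation ζ = 1 := by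
  have h : (A.valuation ζ) ^ m = 1 := by rw [← map_pow, hζ, map_one]
  exact (pow_eq_one_iff_left hm).mp h

/-- A root of unity of order `m` (a unit of `A`) congruent to `1` modulo the maximal ideal
equals `1`. -/
theorem eq_one_of_pow_eq_one_of_valuation_sub_one_lt (A : ValuationSubring L) {m : ℕ}
    (hmv : A.valuation (m : L) = 1) {ξ : L} (hξ : ξ ^ m = 1)
    (h1 : A.valuation (ξ - 1) < 1) : ξ = 1 := by
  by_contra hne
  have hm0 : m ≠ 0 := by
    rintro rfl
    simp at hmv
  have hvξ : A.valuation ξ = 1 := valuation_eq_one_of_pow_eq_one A hm0 hξ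
  have hsum : (∑ i ∈ Finset.range m, ξ ^ i) = 0 := by
    have h := geom_sum_mul ξ m
    rw [hξ, sub_self] at h
    exact (mul_eq_zero.mp h).resolve_right (sub_ne_zero.mpr hne)
  -- each `ξ ^ i - 1` has valuation `< 1`
  have hi : ∀ i : ℕ, A.valuation (ξ ^ i - 1) < 1 := by
    intro i
    have h := geom_sum_mul ξ i
    rw [← h, map_mul]
    have hle : A.valuation (∑ j ∈ Finset.range i, ξ ^ j) ≤ 1 := by
      refine A.valuation.map_sum_le (fun j _ => ?_)
      rw [map_pow, hvξ, one_pow]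
    calc A.valuation (∑ j ∈ Finset.range i, ξ ^ j) * A.valuation (ξ - 1)
        ≤ 1 * A.valuation (ξ - 1) := by gcongr
      _ = A.valuation (ξ - 1) := one_mul _
      _ < 1 := h1
  have hm : (m : L) = - ∑ i ∈ Finset.range m, (ξ ^ i - 1) := by
    rw [Finset.sum_sub_distrib, hsum]
    simp
  have : A.valuation (m : L) < 1 := by
    rw [hm, Valuation.map_neg]
    exact A.valuation.map_sum_lt (by simp) (fun i _ => hi i)
  rw [hmv] at this
  exact lt_irrefl _ this

/-- **Frobenius lifts on roots of unity.** -/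
theorem frobenius_rootOfUnity (A : ValuationSubring L) (σ : L ≃ₐ[K] L) {ℓ m : ℕ}
    (hℓ : A.LiesOverPrime ℓ) (hcop : Nat.Coprime m ℓ) (hF : A.IsFrobeniusAt σ ℓ)
    {ζ : L} (hζ : ζ ^ m = 1) : σ ζ = ζ ^ ℓ := by
  have hmv := valuation_natCast_eq_one_of_coprime A hℓ hcop
  have hm0 : m ≠ 0 := by
    rintro rfl
    simp at hmv
  have hvζ : A.valuation ζ = 1 := valuation_eq_one_of_pow_eq_one A hm0 hζ
  have hζA : ζ ∈ A := (ValuationSubring.valuation_le_one_iff A ζ).mp hvζ.le
  obtain ⟨hσ, hres⟩ := hF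
  set g : A.decompositionSubgroup K := ⟨σ, hσ⟩ with hg
  set z : A := ⟨ζ, hζA⟩ with hz
  have hcoe : ((g • z : A) : L) = σ ζ := rfl
  have hr : IsLocalRing.residue A (g • z - z ^ ℓ) = 0 := by
    rw [map_sub, IsLocalRing.ResidueField.residue_smul, hres, map_pow, sub_self]
  rw [IsLocalRing.residue_eq_zero_iff, ValuationSubring.valuation_lt_one_iff] at hr
  have hr' : A.valuation (σ ζ - ζ ^ ℓ) < 1 := by
    have : ((g • z - z ^ ℓ : A) : L) = σ ζ - ζ ^ ℓ := by
      push_cast
      rw [hcoe]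
    rwa [this] at hr
  have hζ0 : ζ ≠ 0 := by
    rintro rfl
    rw [zero_pow hm0] at hζ
    exact zero_ne_one hζ
  have hζℓ0 : ζ ^ ℓ ≠ 0 := pow_ne_zero _ hζ0
  have hξ : (σ ζ * (ζ ^ ℓ)⁻¹) ^ m = 1 := by
    rw [mul_pow, ← map_pow, hζ, map_one, one_mul, inv_pow, ← pow_mul, mul_comm ℓ m, pow_mul, hζ,
      one_pow, inv_one]
  have h1 : A.valuation (σ ζ * (ζ ^ ℓ)⁻¹ - 1) < 1 := by
    have : σ ζ * (ζ ^ ℓ)⁻¹ - 1 = (σ ζ - ζ ^ ℓ) * (ζ ^ ℓ)⁻¹ := by
      field_simp
    rw [this, map_mul, map_inv₀, map_pow, hvζ, one_pow, inv_one, mul_one]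
    exact hr'
  have := eq_one_of_pow_eq_one_of_valuation_sub_one_lt A hmv hξ h1
  field_simp at this
  exact this

/-- **Inertia fixes roots of unity of order prime to the residue characteristic.** -/
theorem inertia_rootOfUnity (A : ValuationSubring L) (σ : L ≃ₐ[K] L) {q m : ℕ}
    (hq : A.LiesOverPrime q) (hcop : Nat.Coprime m q) (hσI : σ ∈ A.inertiaSubgroupIn K)
    {ζ : L} (hζ : ζ ^ m = 1) : σ ζ = ζ := by
  have hmv := valuation_natCast_eq_one_of_coprime A hq hcop
  have hm0 : m ≠ 0 := by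
    rintro rfl
    simp at hmv
  have hvζ : A.valuation ζ = 1 := valuation_eq_one_of_pow_eq_one A hm0 hζ
  have hζA : ζ ∈ A := (ValuationSubring.valuation_le_one_iff A ζ).mp hvζ.le
  obtain ⟨g, hgI, rfl⟩ := hσI
  set z : A := ⟨ζ, hζA⟩ with hz
  have hcoe : ((g • z : A) : L) = (g : L ≃ₐ[K] L) ζ := rfl
  have hgx : ∀ x : IsLocalRing.ResidueField A, g • x = x := by
    intro x
    have := congrArg (fun f => f x) (MonoidHom.mem_ker.mp hgI)
    simpa using this
  have hr : IsLocalRing.residue A (g • z - z) = 0 := by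
    rw [map_sub, IsLocalRing.ResidueField.residue_smul, hgx, sub_self]
  rw [IsLocalRing.residue_eq_zero_iff, ValuationSubring.valuation_lt_one_iff] at hr
  have hr' : A.valuation ((g : L ≃ₐ[K] L) ζ - ζ) < 1 := by
    have : ((g • z - z : A) : L) = (g : L ≃ₐ[K] L) ζ - ζ := by
      push_cast
      rw [hcoe]
    rwa [this] at hr
  have hζ0 : ζ ≠ 0 := by
    rintro rfl
    rw [zero_pow hm0] at hζ
    exact zero_ne_one hζ
  have hξ : ((g : L ≃ₐ[K] L) ζ * ζ⁻¹) ^ m = 1 := by
    rw [mul_pow, ← map_pow, hζ, map_one, one_mul, inv_pow, hζ, inv_one]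
  have h1 : A.valuation ((g : L ≃ₐ[K] L) ζ * ζ⁻¹ - 1) < 1 := by
    have : (g : L ≃ₐ[K] L) ζ * ζ⁻¹ - 1 = ((g : L ≃ₐ[K] L) ζ - ζ) * ζ⁻¹ := by
      field_simp
    rw [this, map_mul, map_inv₀, hvζ, inv_one, mul_one]
    exact hr'
  have := eq_one_of_pow_eq_one_of_valuation_sub_one_lt A hmv hξ h1
  field_simp at this
  exact this

end Fermat.Agent.H31
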