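import Mathlib
import Fermat.Prelude.Def_EllipticCurve_FrobeniusTrace
import Fermat.Agent.H31.QuadRel.RootsFrob

/-!
# The `p`-adic cyclotomic character with values in a complete local ring (helper31, P-ES)

`O` is a commutative ring, complete for the `I`-adic topology, with `p ∈ I`. We construct
* `padicIntToComplete : ℤ_[p] →+* O`;
* `cycloCharO : Gal(ℚ̄/ℚ) →* Oˣ`, the cyclotomic character, with
  - `cycloCharO_frobenius`: value `ℓ` at every Frobenius lift at a place over `ℓ ≠ p`;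
  - `cycloCharO_sub_one_mem`: `≡ 1 mod I ^ n` on automorphisms fixing a primitive `p ^ n`-th root
    of unity;
  - `cycloCharO_inertia`: trivial on inertia at places over `q ≠ p`.
-/

set_option autoImplicit false

open PadicInt

namespace Fermat.Agent.H31

/-- The absolute Galois group of `ℚ`. -/
abbrev GQ : Type := AlgebraicClosure ℚ ≃ₐ[ℚ] AlgebraicClosure ℚ

section ToComplete

variable (p : ℕ) [Fact p.Prime] {O : Type*} [CommRing O] (I : Ideal O)

omit [Fact p.Prime] in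
/-- `p ^ n = 0` in `O ⧸ I ^ n` when `p ∈ I`. -/
theorem natCast_pow_eq_zero_quot (hp : (p : O) ∈ I) (n : ℕ) :
    (((p ^ n : ℕ) : O ⧸ I ^ n)) = 0 := by
  have : ((p ^ n : ℕ) : O ⧸ I ^ n) = Ideal.Quotient.mk (I ^ n) ((p : O) ^ n) := by
    push_cast
    rfl
  rw [this, Ideal.Quotient.eq_zero_iff_mem]
  exact Ideal.pow_mem_pow hp n

/-- The ring homomorphism `ZMod (p ^ n) → O ⧸ I ^ n`. -/
noncomputable def zmodToQuot (hp : (p : O) ∈ I) (n : ℕ) : ZMod (p ^ n) →+* O ⧸ I ^ n :=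
  ZMod.castHom (ringChar.dvd (natCast_pow_eq_zero_quot p I hp n)) (O ⧸ I ^ n)

/-- The level-`n` map `ℤ_[p] → O ⧸ I ^ n`. -/
noncomputable def padicIntToQuot (hp : (p : O) ∈ I) (n : ℕ) : ℤ_[p] →+* O ⧸ I ^ n :=
  (zmodToQuot p I hp n).comp (PadicInt.toZModPow n)

theorem padicIntToQuot_compat (hp : (p : O) ∈ I) {m n : ℕ} (hle : m ≤ n) :
    (Ideal.Quotient.factorPow I hle).comp (padicIntToQuot p I hp n) = padicIntToQuot p I hp m := by
  unfold padicIntToQuot
  rw [← PadicInt.zmod_cast_comp_toZModPow m n hle, ← RingHom.comp_assoc, ← RingHom.comp_assoc]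
  congr 1
  exact Subsingleton.elim _ _

variable [IsAdicComplete I O]

/-- The canonical ring homomorphism `ℤ_[p] → O` for an `I`-adically complete ring `O` with
`p ∈ I`. -/
noncomputable def padicIntToComplete (hp : (p : O) ∈ I) : ℤ_[p] →+* O :=
  IsAdicComplete.liftRingHom I (padicIntToQuot p I hp) (fun hle => padicIntToQuot_compat p I hp hle)

theorem mk_padicIntToComplete (hp : (p : O) ∈ I) (n : ℕ) (x : ℤ_[p]) :
    Ideal.Quotient.mk (I ^ n) (padicIntToComplete p I hp x) =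
      zmodToQuot p I hp n (PadicInt.toZModPow n x) := by
  unfold padicIntToComplete
  rw [IsAdicComplete.mk_liftRingHom]
  rfl

/-- If `x ≡ 1 mod p ^ n` in `ℤ_[p]` then its image in `O` is `≡ 1 mod I ^ n`. -/
theorem padicIntToComplete_sub_one_mem (hp : (p : O) ∈ I) (n : ℕ) (x : ℤ_[p])
    (hx : PadicInt.toZModPow n x = 1) : padicIntToComplete p I hp x - 1 ∈ I ^ n := by
  rw [← Ideal.Quotient.eq_zero_iff_mem, map_sub, mk_padicIntToComplete, hx, map_one, map_one,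
    sub_self]

end ToComplete

section Character

variable (p : ℕ) [Fact p.Prime]

/-- The `p`-adic cyclotomic character of `Gal(ℚ̄/ℚ)` with values in `ℤ_[p]ˣ`. -/
noncomputable def cycloCharZp : GQ →* ℤ_[p]ˣ :=
  (cyclotomicCharacter (AlgebraicClosure ℚ) p).comp
    (MulSemiringAction.toRingAut GQ (AlgebraicClosure ℚ))

theorem cycloCharZp_spec (g : GQ) {n : ℕ} (t : AlgebraicClosure ℚ) (ht : t ^ p ^ n = 1) :
    g t = t ^ ((PadicInt.toZModPow n) ((cycloCharZp p g : ℤ_[p]ˣ) : ℤ_[p])).val := by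
  have := cyclotomicCharacter.spec (L := AlgebraicClosure ℚ) p
    (MulSemiringAction.toRingAut GQ (AlgebraicClosure ℚ) g) t ht
  exact this

theorem natCast_eq_of_pow_eq {M : Type*} [CommMonoid M] {k : ℕ} {ζ : M}
    (h : IsPrimitiveRoot ζ k) (hk : 0 < k) (i j : ℕ) (hij : ζ ^ i = ζ ^ j) :
    (i : ZMod k) = (j : ZMod k) := by
  rw [ZMod.natCast_eq_natCast_iff]
  have hfin : IsOfFinOrder ζ := isOfFinOrder_iff_pow_eq_one.mpr ⟨k, hk, h.pow_eq_one⟩
  have := hfin.pow_eq_pow_iff_modEq.mp hij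
  rwa [← h.eq_orderOf] at this

/-- If `g ζ = ζ ^ k` for a primitive `p ^ n`-th root of unity, the cyclotomic character of `g`
is `k` modulo `p ^ n`. -/
theorem toZModPow_cycloCharZp_of_pow (g : GQ) {n : ℕ} {ζ : AlgebraicClosure ℚ}
    (hζ : IsPrimitiveRoot ζ (p ^ n)) (k : ℕ) (hk : g ζ = ζ ^ k) :
    (PadicInt.toZModPow n) ((cycloCharZp p g : ℤ_[p]ˣ) : ℤ_[p]) = (k : ZMod (p ^ n)) := by
  have h1 := cycloCharZp_spec p g ζ hζ.pow_eq_one
  rw [hk] at h1
  have hpos : 0 < p ^ n := pow_pos (Fact.out : p.Prime).pos n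
  have h2 := natCast_eq_of_pow_eq hζ hpos _ _ h1
  have : NeZero (p ^ n) := ⟨hpos.ne'⟩
  rw [ZMod.natCast_val, ZMod.cast_id', id] at h2
  exact h2.symm

/-- The cyclotomic character of a Frobenius lift at a place over `ℓ ≠ p` is `ℓ`. -/
theorem cycloCharZp_frobenius (A : ValuationSubring (AlgebraicClosure ℚ)) (σ : GQ) {ℓ : ℕ}
    (hℓ : ℓ.Prime) (hℓp : ℓ ≠ p) (hA : A.LiesOverPrime ℓ) (hF : A.IsFrobeniusAt σ ℓ) :
    ((cycloCharZp p σ : ℤ_[p]ˣ) : ℤ_[p]) = (ℓ : ℤ_[p]) := by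
  rw [← PadicInt.ext_of_toZModPow]
  intro n
  obtain ⟨ζ, hζ⟩ := HasEnoughRootsOfUnity.exists_primitiveRoot (AlgebraicClosure ℚ) (p ^ n)
  have hcop : Nat.Coprime (p ^ n) ℓ :=
    Nat.Coprime.pow_left n ((Nat.coprime_primes (Fact.out : p.Prime) hℓ).mpr (Ne.symm hℓp))
  have h := frobenius_rootOfUnity A σ hA hcop hF hζ.pow_eq_one
  rw [toZModPow_cycloCharZp_of_pow p σ hζ ℓ h, map_natCast]

/-- The cyclotomic character is trivial on inertia at places over `q ≠ p`. -/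
theorem cycloCharZp_inertia (A : ValuationSubring (AlgebraicClosure ℚ)) (σ : GQ) {q : ℕ}
    (hq : q.Prime) (hqp : q ≠ p) (hA : A.LiesOverPrime q) (hσ : σ ∈ A.inertiaSubgroupIn ℚ) :
    cycloCharZp p σ = 1 := by
  apply Units.ext
  rw [Units.val_one, ← PadicInt.ext_of_toZModPow]
  intro n
  obtain ⟨ζ, hζ⟩ := HasEnoughRootsOfUnity.exists_primitiveRoot (AlgebraicClosure ℚ) (p ^ n)
  have hcop : Nat.Coprime (p ^ n) q :=
    Nat.Coprime.pow_left n ((Nat.coprime_primes (Fact.out : p.Prime) hq).mpr (Ne.symm hqp))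
  have h := inertia_rootOfUnity A σ hA hcop hσ hζ.pow_eq_one
  have h' : σ ζ = ζ ^ 1 := by rw [pow_one]; exact h
  rw [toZModPow_cycloCharZp_of_pow p σ hζ 1 h', map_one, Nat.cast_one]

/-- The cyclotomic character is `≡ 1 mod p ^ n` on automorphisms fixing a primitive
`p ^ n`-th root of unity. -/
theorem toZModPow_cycloCharZp_of_fix (g : GQ) {n : ℕ} {ζ : AlgebraicClosure ℚ}
    (hζ : IsPrimitiveRoot ζ (p ^ n)) (hg : g ζ = ζ) :
    (PadicInt.toZModPow n) ((cycloCharZp p g : ℤ_[p]ˣ) : ℤ_[p]) = 1 := by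
  have h' : g ζ = ζ ^ 1 := by rw [pow_one]; exact hg
  rw [toZModPow_cycloCharZp_of_pow p g hζ 1 h', Nat.cast_one]

variable {O : Type*} [CommRing O] (I : Ideal O) [IsAdicComplete I O]

/-- The `p`-adic cyclotomic character with values in `Oˣ`. -/
noncomputable def cycloCharO (hp : (p : O) ∈ I) : GQ →* Oˣ :=
  (Units.map (padicIntToComplete p I hp : ℤ_[p] →* O)).comp (cycloCharZp p)

theorem coe_cycloCharO (hp : (p : O) ∈ I) (g : GQ) :
    ((cycloCharO p I hp g : Oˣ) : O) =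
      padicIntToComplete p I hp ((cycloCharZp p g : ℤ_[p]ˣ) : ℤ_[p]) := rfl

theorem cycloCharO_frobenius (hp : (p : O) ∈ I) (A : ValuationSubring (AlgebraicClosure ℚ))
    (σ : GQ) {ℓ : ℕ} (hℓ : ℓ.Prime) (hℓp : ℓ ≠ p) (hA : A.LiesOverPrime ℓ)
    (hF : A.IsFrobeniusAt σ ℓ) : ((cycloCharO p I hp σ : Oˣ) : O) = (ℓ : O) := by
  rw [coe_cycloCharO, cycloCharZp_frobenius p A σ hℓ hℓp hA hF, map_natCast]

theorem cycloCharO_inertia (hp : (p : O) ∈ I) (A : ValuationSubring (AlgebraicClosure ℚ))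
    (σ : GQ) {q : ℕ} (hq : q.Prime) (hqp : q ≠ p) (hA : A.LiesOverPrime q)
    (hσ : σ ∈ A.inertiaSubgroupIn ℚ) : cycloCharO p I hp σ = 1 := by
  unfold cycloCharO
  rw [MonoidHom.comp_apply, cycloCharZp_inertia p A σ hq hqp hA hσ, map_one]

theorem cycloCharO_sub_one_mem (hp : (p : O) ∈ I) (g : GQ) {n : ℕ} {ζ : AlgebraicClosure ℚ}
    (hζ : IsPrimitiveRoot ζ (p ^ n)) (hg : g ζ = ζ) :
    ((cycloCharO p I hp g : Oˣ) : O) - 1 ∈ I ^ n := by
  rw [coe_cycloCharO]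
  exact padicIntToComplete_sub_one_mem p I hp n _ (toZModPow_cycloCharZp_of_fix p g hζ hg)

end Character

end Fermat.Agent.H31
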