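import Mathlib
import Fermat.Prelude.Def_GaloisRep_Adic
import Fermat.Agent.H31.QuadRel.CycloO

/-!
# Continuous 2×2 matrix representations of `Gal(ℚ̄/ℚ)` (helper31, P-ES)

Dictionary between `GaloisRepAdic O` and monoid homomorphisms `GQ →* Matrix (Fin 2) (Fin 2) O`
which are congruent to `1` modulo `m ^ n` on the fixing subgroup of a finite extension.
-/

set_option autoImplicit false

open Polynomial

namespace Fermat.Agent.H31

variable {O : Type} [CommRing O]

theorem repr_mem_of_mem_smul_top {V ι : Type*} [AddCommGroup V] [Module O V]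
    (b : Module.Basis ι O V) (J : Ideal O) {x : V} (hx : x ∈ J • (⊤ : Submodule O V)) (i : ι) :
    b.repr x i ∈ J := by
  refine Submodule.smul_induction_on hx ?_ ?_
  · intro r hr v _
    rw [map_smul, Finsupp.smul_apply, smul_eq_mul]
    exact J.mul_mem_right _ hr
  · intro x y hx hy
    rw [map_add, Finsupp.add_apply]
    exact J.add_mem hx hy

theorem mem_smul_top_of_forall_mem (J : Ideal O) (w : Fin 2 → O) (hw : ∀ i, w i ∈ J) :
    w ∈ J • (⊤ : Submodule O (Fin 2 → O)) := by
  have : w = ∑ i, w i • (Pi.single i (1 : O) : Fin 2 → O) := by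
    ext k
    simp [Finset.sum_apply, Pi.single_apply]
  rw [this]
  exact Submodule.sum_mem _ fun i _ => Submodule.smul_mem_smul (hw i) Submodule.mem_top

variable [IsLocalRing O]

/-- Adic continuity of a matrix representation. -/
def MatCont (R : GQ →* Matrix (Fin 2) (Fin 2) O) : Prop :=
  ∀ n : ℕ, ∃ L : IntermediateField ℚ (AlgebraicClosure ℚ), FiniteDimensional ℚ L ∧
    ∀ σ : GQ, (∀ x ∈ L, σ x = x) →
      ∀ i j, (R σ - 1) i j ∈ IsLocalRing.maximalIdeal O ^ n

section ToMat

variable (ρ : GaloisRepAdic O) (b : Module.Basis (Fin 2) O ρ.V)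

/-- The matrix representation attached to an adic Galois representation and a basis. -/
noncomputable def matOfRep : GQ →* Matrix (Fin 2) (Fin 2) O :=
  ((LinearMap.toMatrixAlgEquiv b : Module.End O ρ.V ≃ₐ[O] Matrix (Fin 2) (Fin 2) O) :
    Module.End O ρ.V →* Matrix (Fin 2) (Fin 2) O).comp ρ.ρ

theorem matOfRep_apply (g : GQ) : matOfRep ρ b g = LinearMap.toMatrix b b (ρ.ρ g) := rfl

theorem charpoly_matOfRep (g : GQ) : (matOfRep ρ b g).charpoly = LinearMap.charpoly (ρ.ρ g) := by
  rw [matOfRep_apply, LinearMap.charpoly_toMatrix]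

theorem matOfRep_eq_one_iff (g : GQ) : matOfRep ρ b g = 1 ↔ ρ.ρ g = 1 := by
  rw [matOfRep_apply]
  constructor
  · intro h
    apply (LinearMap.toMatrix b b).injective
    rw [h, LinearMap.toMatrix_one]
  · intro h
    rw [h, LinearMap.toMatrix_one]

theorem matCont_matOfRep : MatCont (matOfRep ρ b) := by
  intro n
  obtain ⟨L, hL, h⟩ := ρ.isAdicContinuous n
  refine ⟨L, hL, fun σ hσ i j => ?_⟩
  have h1 := repr_mem_of_mem_smul_top b _ (h σ hσ (b j)) i
  have : (matOfRep ρ b σ - 1) i j = b.repr (ρ.ρ σ (b j) - b j) i := by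
    rw [Matrix.sub_apply, matOfRep_apply, LinearMap.toMatrix_apply, map_sub, Finsupp.sub_apply,
      Module.Basis.repr_self, Finsupp.single_apply, Matrix.one_apply]
    congr 1
    by_cases hij : i = j
    · simp [hij]
    · simp [hij, Ne.symm hij]
  rw [this]
  exact h1

/-- A quadratic relation for `ρ σ` gives the same relation for its matrix. -/
theorem matOfRep_quadratic (g : GQ) (a l : O)
    (h : ρ.ρ g * ρ.ρ g - a • ρ.ρ g + l • (1 : Module.End O ρ.V) = 0) :
    matOfRep ρ b g * matOfRep ρ b g - a • matOfRep ρ b g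
      + l • (1 : Matrix (Fin 2) (Fin 2) O) = 0 := by
  have := congrArg (LinearMap.toMatrixAlgEquiv b) h
  rw [map_add, map_sub, map_mul, map_smul, map_smul, map_one, map_zero] at this
  exact this

end ToMat

section OfMat

variable (R : GQ →* Matrix (Fin 2) (Fin 2) O) (hR : MatCont R)

/-- The adic Galois representation on `O²` attached to a continuous matrix representation. -/
noncomputable def repOfMat : GaloisRepAdic O where
  V := Fin 2 → O
  finrank_eq := by simp
  ρ := ((Matrix.toLinAlgEquiv' : Matrix (Fin 2) (Fin 2) O ≃ₐ[O] Module.End O (Fin 2 → O)) :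
    Matrix (Fin 2) (Fin 2) O →* Module.End O (Fin 2 → O)).comp R
  isAdicContinuous := by
    intro n
    obtain ⟨L, hL, h⟩ := hR n
    refine ⟨L, hL, fun σ hσ v => ?_⟩
    apply mem_smul_top_of_forall_mem
    intro i
    have e : (((Matrix.toLinAlgEquiv' : Matrix (Fin 2) (Fin 2) O ≃ₐ[O] Module.End O (Fin 2 → O)) :
        Matrix (Fin 2) (Fin 2) O →* Module.End O (Fin 2 → O)).comp R σ v - v)
        = (R σ - 1).mulVec v := by
      rw [Matrix.sub_mulVec, Matrix.one_mulVec]
      rfl
    have : (((Matrix.toLinAlgEquiv' : Matrix (Fin 2) (Fin 2) O ≃ₐ[O] Module.End O (Fin 2 → O)) :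
        Matrix (Fin 2) (Fin 2) O →* Module.End O (Fin 2 → O)).comp R σ v - v) i
        = ∑ j, (R σ - 1) i j * v j := by
      rw [e]
      rfl
    rw [this]
    exact Ideal.sum_mem _ fun j _ => Ideal.mul_mem_right _ _ (h σ hσ i j)

theorem repOfMat_apply (g : GQ) : (repOfMat R hR).ρ g = Matrix.toLin' (R g) := rfl

theorem charpoly_repOfMat (g : GQ) :
    LinearMap.charpoly ((repOfMat R hR).ρ g) = (R g).charpoly := by
  rw [repOfMat_apply]
  exact Matrix.charpoly_toLin' (R g)

theorem repOfMat_isUnramifiedAt (q : ℕ)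
    (h : ∀ P : ValuationSubring (AlgebraicClosure ℚ), P.LiesOverPrime q →
      ∀ σ ∈ P.inertiaSubgroupIn ℚ, R σ = 1) :
    (repOfMat R hR).IsUnramifiedAt q := by
  intro P hP σ hσ
  rw [repOfMat_apply, h P hP σ hσ, Matrix.toLin'_one]
  rfl

end OfMat

end Fermat.Agent.H31
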