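import Mathlib
import Fermat.Prelude.Def_GaloisRep_Adic
import Fermat.Agent.H31.QuadRel.Mat2
import Fermat.Agent.H31.QuadRel.MatRep

/-!
# Approximation by Frobenius elements (helper31, P-ES)

`FrobeniusDense` is the existence form of Chebotarev's theorem in the language of the prelude.
From it and adic continuity we approximate any `g ∈ Gal(ℚ̄/ℚ)` by Frobenius lifts, keeping
control of the matrix entries, the determinant and the action on a `p ^ n`-th root of unity.
-/

set_option autoImplicit false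

open Polynomial

namespace Fermat.Agent.H31

/-- Chebotarev's theorem, existence form: Frobenius lifts at places over primes outside any
finite set are dense in `Gal(ℚ̄/ℚ)` (for the Krull topology). -/
def FrobeniusDense : Prop :=
  ∀ (F : IntermediateField ℚ (AlgebraicClosure ℚ)), FiniteDimensional ℚ F →
    ∀ (g : GQ) (S : Finset ℕ),
    ∃ (ℓ : ℕ) (A : ValuationSubring (AlgebraicClosure ℚ)) (φ : GQ),
      ℓ.Prime ∧ ℓ ∉ S ∧ A.LiesOverPrime ℓ ∧ A.IsFrobeniusAt φ ℓ ∧ ∀ x ∈ F, φ x = g x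

section Algebra

variable {O : Type*} [CommRing O]

/-- A 2×2 matrix congruent to `1` modulo `J` has determinant congruent to `1`. -/
theorem det_sub_one_mem (J : Ideal O) (M : Matrix (Fin 2) (Fin 2) O)
    (hM : ∀ i j, (M - 1) i j ∈ J) : M.det - 1 ∈ J := by
  have h00 : M 0 0 - 1 ∈ J := by simpa using hM 0 0
  have h11 : M 1 1 - 1 ∈ J := by simpa using hM 1 1
  have h01 : M 0 1 ∈ J := by simpa using hM 0 1
  have h10 : M 1 0 ∈ J := by simpa using hM 1 0
  have : M.det - 1 = (M 0 0 - 1) * M 1 1 + (M 1 1 - 1) - M 0 1 * M 1 0 := by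
    rw [Matrix.det_fin_two]
    ring
  rw [this]
  exact J.sub_mem (J.add_mem (J.mul_mem_right _ h00) h11) (J.mul_mem_right _ h01)

/-- Entries of `N * M - N` lie in `J` when `M ≡ 1 mod J`. -/
theorem mul_sub_mem (J : Ideal O) (N M : Matrix (Fin 2) (Fin 2) O)
    (hM : ∀ i j, (M - 1) i j ∈ J) (i j : Fin 2) : (N * M - N) i j ∈ J := by
  have : N * M - N = N * (M - 1) := by rw [mul_sub, mul_one]
  rw [this, Matrix.mul_apply]
  exact J.sum_mem fun k _ => J.mul_mem_left _ (hM k j)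

/-- A matrix is "non-scalar modulo `J`" if an off-diagonal entry or the difference of the
diagonal entries is not in `J`. -/
def NonScalarMod (J : Ideal O) (M : Matrix (Fin 2) (Fin 2) O) : Prop :=
  M 0 1 ∉ J ∨ M 1 0 ∉ J ∨ M 0 0 - M 1 1 ∉ J

theorem NonScalarMod.not_scalar {J : Ideal O} {M : Matrix (Fin 2) (Fin 2) O}
    (h : NonScalarMod J M) : ¬ ∃ c : O, M = c • (1 : Matrix (Fin 2) (Fin 2) O) := by
  rintro ⟨c, hc⟩
  rw [mat2_eq_smul_one_iff] at hc
  obtain ⟨h00, h11, h01, h10⟩ := hc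
  rcases h with h | h | h
  · exact h (h01 ▸ J.zero_mem)
  · exact h (h10 ▸ J.zero_mem)
  · exact h (by rw [h00, h11, sub_self]; exact J.zero_mem)

theorem NonScalarMod.congr {J : Ideal O} {M M' : Matrix (Fin 2) (Fin 2) O}
    (h : NonScalarMod J M) (hMM' : ∀ i j, (M' - M) i j ∈ J) : NonScalarMod J M' := by
  have e : ∀ i j, M i j - M' i j ∈ J := fun i j => by
    have := J.neg_mem (hMM' i j)
    simpa using this
  rcases h with h | h | h
  · left
    intro h'
    exact h (by simpa using J.add_mem (e 0 1) h')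
  · right; left
    intro h'
    exact h (by simpa using J.add_mem (e 1 0) h')
  · right; right
    intro h'
    apply h
    have : M 0 0 - M 1 1 = (M 0 0 - M' 0 0) - (M 1 1 - M' 1 1) + (M' 0 0 - M' 1 1) := by ring
    rw [this]
    exact J.add_mem (J.sub_mem (e 0 0) (e 1 1)) h'

theorem NonScalarMod.mono {J J' : Ideal O} (hJ : J' ≤ J) {M : Matrix (Fin 2) (Fin 2) O}
    (h : NonScalarMod J M) : NonScalarMod J' M := by
  rcases h with h | h | h
  · exact Or.inl fun h' => h (hJ h')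
  · exact Or.inr (Or.inl fun h' => h (hJ h'))
  · exact Or.inr (Or.inr fun h' => h (hJ h'))

theorem NonScalarMod.unit_smul {J : Ideal O} {M : Matrix (Fin 2) (Fin 2) O}
    (h : NonScalarMod J M) {α : O} (hα : IsUnit α) : NonScalarMod J (α • M) := by
  obtain ⟨u, rfl⟩ := hα
  have key : ∀ x : O, (u : O) * x ∈ J → x ∈ J := fun x hx => by
    have := J.mul_mem_left ((u⁻¹ : Oˣ) : O) hx
    rwa [← mul_assoc, Units.inv_mul, one_mul] at this
  rcases h with h | h | h
  · exact Or.inl fun h' => h (key _ (by simpa using h'))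
  · exact Or.inr (Or.inl fun h' => h (key _ (by simpa using h')))
  · refine Or.inr (Or.inr fun h' => h (key _ ?_))
    have : (u : O) * (M 0 0 - M 1 1) = ((u : O) • M) 0 0 - ((u : O) • M) 1 1 := by
      simp [mul_sub]
    rw [this]
    exact h'

end Algebra

section Hausdorff

variable {O : Type*} [CommRing O] (I : Ideal O) [IsHausdorff I O]

theorem eq_zero_of_forall_mem_pow {x : O} (h : ∀ n : ℕ, x ∈ I ^ n) : x = 0 := by
  refine IsHausdorff.haus ‹IsHausdorff I O› x fun n => ?_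
  rw [SModEq.zero, smul_eq_mul, Ideal.mul_top]
  exact h n

theorem exists_not_mem_pow {x : O} (hx : x ≠ 0) : ∃ n : ℕ, x ∉ I ^ n := by
  by_contra h
  push Not at h
  exact hx (eq_zero_of_forall_mem_pow I h)

/-- A non-scalar matrix is non-scalar modulo some power of `I`. -/
theorem exists_nonScalarMod {M : Matrix (Fin 2) (Fin 2) O}
    (hM : ¬ ∃ c : O, M = c • (1 : Matrix (Fin 2) (Fin 2) O)) :
    ∃ n : ℕ, NonScalarMod (I ^ n) M := by
  have h : M 0 1 ≠ 0 ∨ M 1 0 ≠ 0 ∨ M 0 0 - M 1 1 ≠ 0 := by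
    by_contra hcon
    push Not at hcon
    obtain ⟨h01, h10, h00⟩ := hcon
    exact hM ⟨M 0 0, (mat2_eq_smul_one_iff M (M 0 0)).mpr
      ⟨rfl, (sub_eq_zero.mp h00).symm, h01, h10⟩⟩
  rcases h with h | h | h
  · obtain ⟨n, hn⟩ := exists_not_mem_pow I h
    exact ⟨n, Or.inl hn⟩
  · obtain ⟨n, hn⟩ := exists_not_mem_pow I h
    exact ⟨n, Or.inr (Or.inl hn)⟩
  · obtain ⟨n, hn⟩ := exists_not_mem_pow I h
    exact ⟨n, Or.inr (Or.inr hn)⟩

end Hausdorff

section Approx

variable {O : Type} [CommRing O] [IsLocalRing O]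

/-- The field generated by a root of unity is finite over `ℚ`. -/
theorem finiteDimensional_adjoin_singleton (ζ : AlgebraicClosure ℚ) :
    FiniteDimensional ℚ (IntermediateField.adjoin ℚ ({ζ} : Set (AlgebraicClosure ℚ))) :=
  IntermediateField.adjoin.finiteDimensional
    ((AlgebraicClosure.isAlgebraic ℚ).isIntegral.isIntegral ζ)

/-- **Approximation by Frobenius lifts.** -/
theorem exists_frobenius_approx (hcheb : FrobeniusDense)
    (R : GQ →* Matrix (Fin 2) (Fin 2) O) (hR : MatCont R) (n : ℕ) (ζ : AlgebraicClosure ℚ)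
    (g : GQ) (S : Finset ℕ) :
    ∃ (ℓ : ℕ) (A : ValuationSubring (AlgebraicClosure ℚ)) (φ : GQ),
      ℓ.Prime ∧ ℓ ∉ S ∧ A.LiesOverPrime ℓ ∧ A.IsFrobeniusAt φ ℓ ∧
      (∀ i j, (R φ - R g) i j ∈ IsLocalRing.maximalIdeal O ^ n) ∧
      (R φ).det - (R g).det ∈ IsLocalRing.maximalIdeal O ^ n ∧ φ ζ = g ζ := by
  obtain ⟨L, hL, hLR⟩ := hR n
  have := hL
  have := finiteDimensional_adjoin_singleton ζ
  obtain ⟨ℓ, A, φ, hℓ, hℓS, hA, hF, hφ⟩ :=
    hcheb (L ⊔ IntermediateField.adjoin ℚ ({ζ} : Set (AlgebraicClosure ℚ)))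
      (IntermediateField.finiteDimensional_sup L _) g S
  refine ⟨ℓ, A, φ, hℓ, hℓS, hA, hF, ?_, ?_, ?_⟩
  all_goals
    have hfix : ∀ x ∈ L, (g⁻¹ * φ) x = x := fun x hx => by
      have hx' : x ∈ L ⊔ IntermediateField.adjoin ℚ ({ζ} : Set (AlgebraicClosure ℚ)) :=
        (le_sup_left : L ≤ _) hx
      rw [AlgEquiv.mul_apply, hφ x hx']
      exact AlgEquiv.symm_apply_apply g x
    have hh := hLR (g⁻¹ * φ) hfix
    have hmul : R φ = R g * R (g⁻¹ * φ) := by
      rw [← map_mul, mul_inv_cancel_left]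
  · intro i j
    rw [hmul]
    exact mul_sub_mem _ (R g) _ hh i j
  · rw [hmul, Matrix.det_mul]
    have := det_sub_one_mem _ _ hh
    have e : (R g).det * (R (g⁻¹ * φ)).det - (R g).det
        = (R g).det * ((R (g⁻¹ * φ)).det - 1) := by ring
    rw [e]
    exact Ideal.mul_mem_left _ _ this
  · exact hφ ζ ((le_sup_right : IntermediateField.adjoin ℚ ({ζ} : Set (AlgebraicClosure ℚ)) ≤ _)
      (IntermediateField.subset_adjoin ℚ _ (Set.mem_singleton ζ)))

end Approx

end Fermat.Agent.H31
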