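import Mathlib
import Fermat.Prelude.Def_GaloisRep_Adic
import Fermat.Agent.H31.QuadRel.Approx

/-!
# Scalar Frobenius elements have the right square (helper31, P-ES)

Core of the argument: for a continuous 2×2 matrix representation `R` of `Gal(ℚ̄/ℚ)` satisfying
the quadratic relation `R σ ^ 2 - a_ℓ R σ + ℓ = 0` at all Frobenius lifts outside `S`, and not
scalar, every Frobenius lift has trace `a_ℓ` and determinant `ℓ`.
-/

set_option autoImplicit false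

open Polynomial

namespace Fermat.Agent.H31

variable {O : Type} [CommRing O] [IsLocalRing O]

/-- The quadratic Frobenius relation for a matrix representation. -/
def MatQuadRel (R : GQ →* Matrix (Fin 2) (Fin 2) O) (S : Finset ℕ) (a : ℕ → O) : Prop :=
  ∀ ℓ : ℕ, ℓ.Prime → ℓ ∉ S → ∀ A : ValuationSubring (AlgebraicClosure ℚ), A.LiesOverPrime ℓ →
    ∀ σ : GQ, A.IsFrobeniusAt σ ℓ →
      R σ * R σ - a ℓ • R σ + (ℓ : O) • (1 : Matrix (Fin 2) (Fin 2) O) = 0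

/-- A natural number prime to `p` is a unit in a local ring with `p` in the maximal ideal. -/
theorem isUnit_natCast_of_coprime {p ℓ : ℕ} (hp : (p : O) ∈ IsLocalRing.maximalIdeal O)
    (hcop : Nat.Coprime ℓ p) : IsUnit (ℓ : O) := by
  by_contra hnu
  have hℓm : (ℓ : O) ∈ IsLocalRing.maximalIdeal O := (IsLocalRing.mem_maximalIdeal _).mpr hnu
  have hbez : (ℓ : ℤ) * Nat.gcdA ℓ p + (p : ℤ) * Nat.gcdB ℓ p = 1 := by
    have := Nat.gcd_eq_gcd_ab ℓ p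
    rw [hcop] at this
    exact_mod_cast this.symm
  have hbezO : (ℓ : O) * ((Nat.gcdA ℓ p : ℤ) : O) + (p : O) * ((Nat.gcdB ℓ p : ℤ) : O) = 1 := by
    have := congrArg (Int.cast : ℤ → O) hbez
    push_cast at this
    exact this
  have h1 : (1 : O) ∈ IsLocalRing.maximalIdeal O := by
    rw [← hbezO]
    exact Ideal.add_mem _ (Ideal.mul_mem_right _ _ hℓm) (Ideal.mul_mem_right _ _ hp)
  exact (IsLocalRing.maximalIdeal.isMaximal O).ne_top ((Ideal.eq_top_iff_one _).mpr h1)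

omit [IsLocalRing O] in
/-- Congruence of exponents of a primitive `p ^ n`-th root of unity, transported to `O`. -/
theorem natCast_sub_mem_of_pow_eq (p : ℕ) [Fact p.Prime] (I : Ideal O) (hp : (p : O) ∈ I)
    {n : ℕ} {ζ : AlgebraicClosure ℚ} (hζ : IsPrimitiveRoot ζ (p ^ n)) {i j : ℕ}
    (h : ζ ^ i = ζ ^ j) : (j : O) - (i : O) ∈ I ^ n := by
  have hpos : 0 < p ^ n := pow_pos (Fact.out : p.Prime).pos n
  have h1 := natCast_eq_of_pow_eq hζ hpos i j h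
  rw [ZMod.natCast_eq_natCast_iff, Nat.modEq_iff_dvd] at h1
  obtain ⟨k, hk⟩ := h1
  have : (j : O) - (i : O) = (p : O) ^ n * (k : O) := by
    have := congrArg (Int.cast : ℤ → O) hk
    push_cast at this
    exact this
  rw [this]
  exact Ideal.mul_mem_right _ _ (Ideal.pow_mem_pow hp n)

omit [IsLocalRing O] in
theorem isUnit_det_map (R : GQ →* Matrix (Fin 2) (Fin 2) O) (g : GQ) : IsUnit (R g).det := by
  have : (R g).det * (R g⁻¹).det = 1 := by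
    rw [← Matrix.det_mul, ← map_mul, mul_inv_cancel, map_one, Matrix.det_one]
  exact IsUnit.of_mul_eq_one _ this

omit [IsLocalRing O] in
theorem isUnit_of_map_eq_smul_one (R : GQ →* Matrix (Fin 2) (Fin 2) O) (g : GQ) {α : O}
    (h : R g = α • (1 : Matrix (Fin 2) (Fin 2) O)) : IsUnit α := by
  have h1 : R g * R g⁻¹ = 1 := by rw [← map_mul, mul_inv_cancel, map_one]
  have h2 := congrFun (congrFun h1 0) 0
  rw [h] at h2
  simp at h2
  exact IsUnit.of_mul_eq_one _ h2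

variable [IsDomain O]

/-- **Core.** If the representation is not scalar, a scalar Frobenius `α` satisfies `α² = ℓ`. -/
theorem sq_eq_of_scalar_frobenius (hcheb : FrobeniusDense) (p : ℕ) [Fact p.Prime]
    [IsHausdorff (IsLocalRing.maximalIdeal O) O] (hpO : (p : O) ∈ IsLocalRing.maximalIdeal O)
    (R : GQ →* Matrix (Fin 2) (Fin 2) O) (hR : MatCont R) (S : Finset ℕ) (hpS : p ∈ S)
    (a : ℕ → O) (hQ : MatQuadRel R S a) (g₁ : GQ)
    (hg₁ : ¬ ∃ c : O, R g₁ = c • (1 : Matrix (Fin 2) (Fin 2) O))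
    {ℓ : ℕ} (hℓ : ℓ.Prime) (hℓS : ℓ ∉ S) {A : ValuationSubring (AlgebraicClosure ℚ)}
    (hA : A.LiesOverPrime ℓ) {σ : GQ} (hF : A.IsFrobeniusAt σ ℓ) {α : O}
    (hα : R σ = α • (1 : Matrix (Fin 2) (Fin 2) O)) : α ^ 2 = (ℓ : O) := by
  set I := IsLocalRing.maximalIdeal O with hI
  have hp : p.Prime := Fact.out
  obtain ⟨n₀, hn₀⟩ := exists_nonScalarMod I hg₁
  have hαu : IsUnit α := isUnit_of_map_eq_smul_one R σ hα
  have hD : IsUnit (R g₁).det := isUnit_det_map R g₁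
  have hne : ∀ {ℓ' : ℕ}, ℓ'.Prime → ℓ' ∉ S → ∀ n : ℕ, Nat.Coprime (p ^ n) ℓ' := by
    intro ℓ' hℓ' hℓ'S n
    have : ℓ' ≠ p := fun h => hℓ'S (h ▸ hpS)
    exact Nat.Coprime.pow_left n ((Nat.coprime_primes hp hℓ').mpr (Ne.symm this))
  have key : ∀ n, n₀ ≤ n → α ^ 2 - (ℓ : O) ∈ I ^ n := by
    intro n hn
    obtain ⟨ζ, hζ⟩ := HasEnoughRootsOfUnity.exists_primitiveRoot (AlgebraicClosure ℚ) (p ^ n)
    obtain ⟨ℓ₁, A₁, φ₁, hℓ₁, hℓ₁S, hA₁, hF₁, hent₁, hdet₁, hζ₁⟩ :=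
      exists_frobenius_approx hcheb R hR n ζ g₁ S
    obtain ⟨ℓ₂, A₂, φ₂, hℓ₂, hℓ₂S, hA₂, hF₂, hent₂, hdet₂, hζ₂⟩ :=
      exists_frobenius_approx hcheb R hR n ζ (σ * g₁) S
    have hns : NonScalarMod (I ^ n) (R g₁) := hn₀.mono (Ideal.pow_le_pow_right hn)
    have hns₁ : NonScalarMod (I ^ n) (R φ₁) := hns.congr hent₁
    have hσg : R (σ * g₁) = α • R g₁ := by
      rw [map_mul, hα, Matrix.smul_mul, one_mul]
    have hns₂ : NonScalarMod (I ^ n) (R φ₂) := by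
      refine NonScalarMod.congr ?_ hent₂
      rw [hσg]
      exact hns.unit_smul hαu
    have hd₁ : (R φ₁).det = (ℓ₁ : O) :=
      ((mat2_scalar_or_trace_det _ _ _ (hQ ℓ₁ hℓ₁ hℓ₁S A₁ hA₁ φ₁ hF₁)).resolve_left
        hns₁.not_scalar).2
    have hd₂ : (R φ₂).det = (ℓ₂ : O) :=
      ((mat2_scalar_or_trace_det _ _ _ (hQ ℓ₂ hℓ₂ hℓ₂S A₂ hA₂ φ₂ hF₂)).resolve_left
        hns₂.not_scalar).2
    have hdσg : (R (σ * g₁)).det = α ^ 2 * (R g₁).det := by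
      rw [hσg, Matrix.det_smul]
      simp
    -- roots of unity
    have e₁ : φ₁ ζ = ζ ^ ℓ₁ :=
      frobenius_rootOfUnity A₁ φ₁ hA₁ (hne hℓ₁ hℓ₁S n) hF₁ hζ.pow_eq_one
    have e₂ : φ₂ ζ = ζ ^ ℓ₂ :=
      frobenius_rootOfUnity A₂ φ₂ hA₂ (hne hℓ₂ hℓ₂S n) hF₂ hζ.pow_eq_one
    have e : σ ζ = ζ ^ ℓ := frobenius_rootOfUnity A σ hA (hne hℓ hℓS n) hF hζ.pow_eq_one
    have e₃ : ζ ^ (ℓ * ℓ₁) = ζ ^ ℓ₂ := by
      rw [← e₂, hζ₂, AlgEquiv.mul_apply, ← hζ₁, e₁, map_pow, e, ← pow_mul]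
    have hcong : (ℓ₂ : O) - ((ℓ * ℓ₁ : ℕ) : O) ∈ I ^ n :=
      natCast_sub_mem_of_pow_eq p I hpO hζ e₃
    rw [hd₁] at hdet₁
    rw [hd₂, hdσg] at hdet₂
    have hfin : (α ^ 2 - (ℓ : O)) * (R g₁).det ∈ I ^ n := by
      have : (α ^ 2 - (ℓ : O)) * (R g₁).det
          = ((ℓ₂ : O) - ((ℓ * ℓ₁ : ℕ) : O)) - ((ℓ₂ : O) - α ^ 2 * (R g₁).det)
            + (ℓ : O) * ((ℓ₁ : O) - (R g₁).det) := by
        push_cast
        ring
      rw [this]
      exact Ideal.add_mem _ (Ideal.sub_mem _ hcong hdet₂) (Ideal.mul_mem_left _ _ hdet₁)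
    obtain ⟨u, hu⟩ := hD
    have := Ideal.mul_mem_right ((u⁻¹ : Oˣ) : O) _ hfin
    rwa [← hu, mul_assoc, Units.mul_inv, mul_one] at this
  have hall : ∀ n, α ^ 2 - (ℓ : O) ∈ I ^ n := by
    intro n
    rcases le_total n₀ n with h | h
    · exact key n h
    · exact Ideal.pow_le_pow_right h (key n₀ le_rfl)
  exact sub_eq_zero.mp (eq_zero_of_forall_mem_pow I hall)

/-- In the non-scalar case every Frobenius lift outside `S` has trace `a_ℓ` and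
determinant `ℓ`. -/
theorem trace_det_of_matQuadRel (hcheb : FrobeniusDense) (p : ℕ) [Fact p.Prime]
    [IsHausdorff (IsLocalRing.maximalIdeal O) O] (hpO : (p : O) ∈ IsLocalRing.maximalIdeal O)
    (R : GQ →* Matrix (Fin 2) (Fin 2) O) (hR : MatCont R) (S : Finset ℕ) (hpS : p ∈ S)
    (a : ℕ → O) (hQ : MatQuadRel R S a) (g₁ : GQ)
    (hg₁ : ¬ ∃ c : O, R g₁ = c • (1 : Matrix (Fin 2) (Fin 2) O))
    {ℓ : ℕ} (hℓ : ℓ.Prime) (hℓS : ℓ ∉ S) {A : ValuationSubring (AlgebraicClosure ℚ)}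
    (hA : A.LiesOverPrime ℓ) {σ : GQ} (hF : A.IsFrobeniusAt σ ℓ) :
    (R σ).trace = a ℓ ∧ (R σ).det = (ℓ : O) := by
  have hrel := hQ ℓ hℓ hℓS A hA σ hF
  rcases mat2_scalar_or_trace_det _ _ _ hrel with ⟨α, hα⟩ | h
  · have hsq := sq_eq_of_scalar_frobenius hcheb p hpO R hR S hpS a hQ g₁ hg₁ hℓ hℓS hA hF hα
    have hq : α ^ 2 - a ℓ * α + (ℓ : O) = 0 := by
      rw [hα] at hrel
      exact mat2_scalar_quadratic _ _ _ hrel
    have hℓp : ℓ ≠ p := fun h => hℓS (h ▸ hpS)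
    have hℓ0 : (ℓ : O) ≠ 0 :=
      (isUnit_natCast_of_coprime hpO
        ((Nat.coprime_primes hℓ (Fact.out : p.Prime)).mpr hℓp)).ne_zero
    exact mat2_trace_det_of_scalar _ _ _ _ hα hsq hq hℓ0
  · exact h

end Fermat.Agent.H31
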