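import Mathlib
import Fermat.Prelude.Def_GaloisRep_Adic
import Fermat.Agent.H31.QuadRel.Core

/-!
# From the Eichler–Shimura quadratic relation to the characteristic polynomial
(helper31, P-ES)

Main results (`O` a local domain, complete for its maximal ideal, `p` in the maximal ideal,
`S` a finite set of primes containing `p`):

* `exists_galoisRepAdic_of_character`: a continuous character `ψ` with
  `ψ(σ)² - a_ℓ ψ(σ) + ℓ = 0` at all Frobenius lifts outside `S` gives the representation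
  `ψ ⊕ χ_cyc ψ⁻¹` with Frobenius characteristic polynomials `X² - a_ℓ X + ℓ`. (No Chebotarev.)
* `exists_galoisRepAdic_charpoly`: an adic Galois representation `ρ` (free of rank 2) with
  `ρ(σ)² - a_ℓ ρ(σ) + ℓ = 0` at all Frobenius lifts outside `S` gives, assuming the existence
  form of Chebotarev (`FrobeniusDense`), a representation `ρ'` with Frobenius characteristic
  polynomials `X² - a_ℓ X + ℓ`, unramified wherever `ρ` is (away from `p`).
-/

set_option autoImplicit false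

open Polynomial

namespace Fermat.Agent.H31

variable {O : Type} [CommRing O] [IsLocalRing O] [IsDomain O]
  [IsAdicComplete (IsLocalRing.maximalIdeal O) O]

section Character

variable (p : ℕ) [Fact p.Prime]

/-- The diagonal matrix representation `ψ ⊕ θ`. -/
noncomputable def diagRep (ψ θ : GQ →* Oˣ) : GQ →* Matrix (Fin 2) (Fin 2) O where
  toFun g := Matrix.diagonal ![((ψ g : Oˣ) : O), ((θ g : Oˣ) : O)]
  map_one' := by
    ext i j
    fin_cases i <;> fin_cases j <;> simp [Matrix.diagonal]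
  map_mul' g g' := by
    rw [Matrix.diagonal_mul_diagonal]
    congr 1
    ext i
    fin_cases i <;> simp

omit [IsLocalRing O] [IsDomain O] [IsAdicComplete (IsLocalRing.maximalIdeal O) O] in
theorem diagRep_apply (ψ θ : GQ →* Oˣ) (g : GQ) :
    diagRep ψ θ g = Matrix.diagonal ![((ψ g : Oˣ) : O), ((θ g : Oˣ) : O)] := rfl

omit [IsLocalRing O] [IsDomain O] [IsAdicComplete (IsLocalRing.maximalIdeal O) O] in
theorem diagRep_trace (ψ θ : GQ →* Oˣ) (g : GQ) :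
    (diagRep ψ θ g).trace = ((ψ g : Oˣ) : O) + ((θ g : Oˣ) : O) := by
  rw [diagRep_apply, Matrix.trace_fin_two]
  simp

omit [IsLocalRing O] [IsDomain O] [IsAdicComplete (IsLocalRing.maximalIdeal O) O] in
theorem diagRep_det (ψ θ : GQ →* Oˣ) (g : GQ) :
    (diagRep ψ θ g).det = ((ψ g : Oˣ) : O) * ((θ g : Oˣ) : O) := by
  rw [diagRep_apply, Matrix.det_fin_two]
  simp

omit [IsLocalRing O] [IsDomain O] [IsAdicComplete (IsLocalRing.maximalIdeal O) O] in
theorem diagRep_sub_one_mem (ψ θ : GQ →* Oˣ) (g : GQ) (J : Ideal O)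
    (hψ : ((ψ g : Oˣ) : O) - 1 ∈ J) (hθ : ((θ g : Oˣ) : O) - 1 ∈ J) (i j : Fin 2) :
    (diagRep ψ θ g - 1) i j ∈ J := by
  rw [diagRep_apply]
  fin_cases i <;> fin_cases j <;> simp [Matrix.diagonal, hψ, hθ]

omit [IsLocalRing O] [IsDomain O] [IsAdicComplete (IsLocalRing.maximalIdeal O) O] in
theorem diagRep_eq_one (ψ θ : GQ →* Oˣ) (g : GQ) (hψ : ψ g = 1) (hθ : θ g = 1) :
    diagRep ψ θ g = 1 := by
  rw [diagRep_apply, hψ, hθ]
  ext i j
  fin_cases i <;> fin_cases j <;> simp [Matrix.diagonal]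

omit [IsLocalRing O] [IsDomain O] [IsAdicComplete (IsLocalRing.maximalIdeal O) O] in
/-- `u v⁻¹ ≡ 1` if `u ≡ 1` and `v ≡ 1`. -/
theorem units_div_sub_one_mem (J : Ideal O) (u v : Oˣ) (hu : (u : O) - 1 ∈ J)
    (hv : (v : O) - 1 ∈ J) : ((u / v : Oˣ) : O) - 1 ∈ J := by
  have : ((u / v : Oˣ) : O) - 1 = (((u : O) - 1) - ((v : O) - 1)) * ((v⁻¹ : Oˣ) : O) := by
    rw [div_eq_mul_inv, Units.val_mul]
    have hv' : (v : O) * ((v⁻¹ : Oˣ) : O) = 1 := Units.mul_inv v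
    linear_combination hv'
  rw [this]
  exact J.mul_mem_right _ (J.sub_mem hu hv)

omit [IsDomain O] in
/-- **Rank one input**: `ψ ⊕ χ_cyc ψ⁻¹`. -/
theorem exists_galoisRepAdic_of_character (hpO : (p : O) ∈ IsLocalRing.maximalIdeal O)
    (S : Finset ℕ) (hpS : p ∈ S) (a : ℕ → O)
    (ψ : GQ →* Oˣ)
    (hψc : ∀ n : ℕ, ∃ L : IntermediateField ℚ (AlgebraicClosure ℚ), FiniteDimensional ℚ L ∧
      ∀ σ : GQ, (∀ x ∈ L, σ x = x) → ((ψ σ : Oˣ) : O) - 1 ∈ IsLocalRing.maximalIdeal O ^ n)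
    (hψQ : ∀ ℓ : ℕ, ℓ.Prime → ℓ ∉ S → ∀ A : ValuationSubring (AlgebraicClosure ℚ),
      A.LiesOverPrime ℓ → ∀ σ : GQ, A.IsFrobeniusAt σ ℓ →
        ((ψ σ : Oˣ) : O) ^ 2 - a ℓ * ((ψ σ : Oˣ) : O) + (ℓ : O) = 0) :
    ∃ ρ' : GaloisRepAdic O,
      (∀ ℓ : ℕ, ℓ.Prime → ℓ ∉ S → ∀ A : ValuationSubring (AlgebraicClosure ℚ),
        A.LiesOverPrime ℓ → ∀ σ : GQ, A.IsFrobeniusAt σ ℓ →
          LinearMap.charpoly (ρ'.ρ σ) = X ^ 2 - C (a ℓ) * X + C (ℓ : O)) ∧
      (∀ q : ℕ, q.Prime → q ≠ p →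
        (∀ P : ValuationSubring (AlgebraicClosure ℚ), P.LiesOverPrime q →
          ∀ σ ∈ P.inertiaSubgroupIn ℚ, ψ σ = 1) → ρ'.IsUnramifiedAt q) := by
  set I := IsLocalRing.maximalIdeal O with hI
  set χ : GQ →* Oˣ := cycloCharO p I hpO with hχ
  set θ : GQ →* Oˣ := χ / ψ with hθ
  have hcont : MatCont (diagRep ψ θ) := by
    intro n
    obtain ⟨L, hL, hLψ⟩ := hψc n
    obtain ⟨ζ, hζ⟩ := HasEnoughRootsOfUnity.exists_primitiveRoot (AlgebraicClosure ℚ) (p ^ n)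
    have := hL
    have := finiteDimensional_adjoin_singleton ζ
    refine ⟨L ⊔ IntermediateField.adjoin ℚ ({ζ} : Set (AlgebraicClosure ℚ)),
      IntermediateField.finiteDimensional_sup L _, fun σ hσ i j => ?_⟩
    have h1 : ((ψ σ : Oˣ) : O) - 1 ∈ I ^ n :=
      hLψ σ fun x hx => hσ x ((le_sup_left : L ≤ _) hx)
    have h2 : ((χ σ : Oˣ) : O) - 1 ∈ I ^ n :=
      cycloCharO_sub_one_mem p I hpO σ hζ
        (hσ ζ ((le_sup_right : IntermediateField.adjoin ℚ ({ζ} : Set (AlgebraicClosure ℚ)) ≤ _)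
          (IntermediateField.subset_adjoin ℚ _ (Set.mem_singleton ζ))))
    have h3 : ((θ σ : Oˣ) : O) - 1 ∈ I ^ n := by
      rw [hθ, MonoidHom.div_apply]
      exact units_div_sub_one_mem _ _ _ h2 h1
    exact diagRep_sub_one_mem ψ θ σ _ h1 h3 i j
  refine ⟨repOfMat (diagRep ψ θ) hcont, ?_, ?_⟩
  · intro ℓ hℓ hℓS A hA σ hF
    rw [charpoly_repOfMat]
    have hℓp : ℓ ≠ p := fun h => hℓS (h ▸ hpS)
    have hχσ : ((χ σ : Oˣ) : O) = (ℓ : O) := cycloCharO_frobenius p I hpO A σ hℓ hℓp hA hF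
    have hθσ : ((ψ σ : Oˣ) : O) * ((θ σ : Oˣ) : O) = (ℓ : O) := by
      rw [hθ, MonoidHom.div_apply, ← Units.val_mul, mul_div_cancel, hχσ]
    have hq := hψQ ℓ hℓ hℓS A hA σ hF
    have htr : ((ψ σ : Oˣ) : O) + ((θ σ : Oˣ) : O) = a ℓ := by
      have hu : IsUnit ((ψ σ : Oˣ) : O) := (ψ σ).isUnit
      have h : ((ψ σ : Oˣ) : O) * (((ψ σ : Oˣ) : O) + ((θ σ : Oˣ) : O))
          = ((ψ σ : Oˣ) : O) * a ℓ := by
        rw [mul_add, hθσ]
        linear_combination hq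
      exact hu.mul_left_cancel h
    exact mat2_charpoly_of_trace_det _ _ _ (by rw [diagRep_trace, htr]) (by rw [diagRep_det, hθσ])
  · intro q hq hqp hunr
    refine repOfMat_isUnramifiedAt _ hcont q fun P hP σ hσ => ?_
    refine diagRep_eq_one ψ θ σ (hunr P hP σ hσ) ?_
    rw [hθ, MonoidHom.div_apply, hunr P hP σ hσ, cycloCharO_inertia p I hpO P σ hq hqp hP hσ,
      div_one]

end Character

section Main

variable (p : ℕ) [Fact p.Prime]

omit [IsLocalRing O] [IsDomain O] [IsAdicComplete (IsLocalRing.maximalIdeal O) O] in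
/-- The scalar of an everywhere-scalar matrix representation, as a character. -/
theorem exists_character_of_scalar (R : GQ →* Matrix (Fin 2) (Fin 2) O)
    (h : ∀ g : GQ, ∃ c : O, R g = c • (1 : Matrix (Fin 2) (Fin 2) O)) :
    ∃ ψ : GQ →* Oˣ, ∀ g : GQ, R g = ((ψ g : Oˣ) : O) • (1 : Matrix (Fin 2) (Fin 2) O) := by
  have hval : ∀ g : GQ, R g = (R g 0 0) • (1 : Matrix (Fin 2) (Fin 2) O) := by
    intro g
    obtain ⟨c, hc⟩ := h g
    have : R g 0 0 = c := by rw [hc]; simp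
    rw [this]
    exact hc
  let ψ₀ : GQ →* O :=
    { toFun := fun g => R g 0 0
      map_one' := by simp
      map_mul' := fun g g' => by
        have h01 : R g 0 1 = 0 := by rw [hval g]; simp
        show R (g * g') 0 0 = R g 0 0 * R g' 0 0
        rw [map_mul, Matrix.mul_apply, Fin.sum_univ_two, h01, zero_mul, add_zero] }
  refine ⟨ψ₀.toHomUnits, fun g => ?_⟩
  rw [MonoidHom.coe_toHomUnits]
  exact hval g

/-- **Main theorem.** From the quadratic Frobenius relation to the characteristic polynomial,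
assuming the existence form of Chebotarev's theorem. -/
theorem exists_galoisRepAdic_charpoly (hcheb : FrobeniusDense)
    (hpO : (p : O) ∈ IsLocalRing.maximalIdeal O) (S : Finset ℕ) (hpS : p ∈ S)
    (a : ℕ → O) (ρ : GaloisRepAdic O)
    (hQ : ∀ ℓ : ℕ, ℓ.Prime → ℓ ∉ S → ∀ A : ValuationSubring (AlgebraicClosure ℚ),
      A.LiesOverPrime ℓ → ∀ σ : GQ, A.IsFrobeniusAt σ ℓ →
        ρ.ρ σ * ρ.ρ σ - a ℓ • ρ.ρ σ + (ℓ : O) • (1 : Module.End O ρ.V) = 0) :
    ∃ ρ' : GaloisRepAdic O,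
      (∀ ℓ : ℕ, ℓ.Prime → ℓ ∉ S → ∀ A : ValuationSubring (AlgebraicClosure ℚ),
        A.LiesOverPrime ℓ → ∀ σ : GQ, A.IsFrobeniusAt σ ℓ →
          LinearMap.charpoly (ρ'.ρ σ) = X ^ 2 - C (a ℓ) * X + C (ℓ : O)) ∧
      (∀ q : ℕ, q.Prime → q ≠ p → ρ.IsUnramifiedAt q → ρ'.IsUnramifiedAt q) := by
  set b : Module.Basis (Fin 2) O ρ.V := Module.finBasisOfFinrankEq O ρ.V ρ.finrank_eq with hb
  set R := matOfRep ρ b with hRdef
  have hR : MatCont R := matCont_matOfRep ρ b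
  have hQR : MatQuadRel R S a := fun ℓ hℓ hℓS A hA σ hF =>
    matOfRep_quadratic ρ b σ _ _ (hQ ℓ hℓ hℓS A hA σ hF)
  by_cases hns : ∃ g₁ : GQ, ¬ ∃ c : O, R g₁ = c • (1 : Matrix (Fin 2) (Fin 2) O)
  · obtain ⟨g₁, hg₁⟩ := hns
    refine ⟨ρ, ?_, fun q _ _ h => h⟩
    intro ℓ hℓ hℓS A hA σ hF
    obtain ⟨ht, hd⟩ := trace_det_of_matQuadRel hcheb p hpO R hR S hpS a hQR g₁ hg₁ hℓ hℓS hA hF
    rw [← charpoly_matOfRep ρ b σ]
    exact mat2_charpoly_of_trace_det _ _ _ ht hd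
  · push Not at hns
    obtain ⟨ψ, hψ⟩ := exists_character_of_scalar R hns
    have hψc : ∀ n : ℕ, ∃ L : IntermediateField ℚ (AlgebraicClosure ℚ), FiniteDimensional ℚ L ∧
        ∀ σ : GQ, (∀ x ∈ L, σ x = x) →
          ((ψ σ : Oˣ) : O) - 1 ∈ IsLocalRing.maximalIdeal O ^ n := by
      intro n
      obtain ⟨L, hL, h⟩ := hR n
      refine ⟨L, hL, fun σ hσ => ?_⟩
      have := h σ hσ 0 0
      rw [hψ σ] at this
      simpa using this
    have hψQ : ∀ ℓ : ℕ, ℓ.Prime → ℓ ∉ S → ∀ A : ValuationSubring (AlgebraicClosure ℚ),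
        A.LiesOverPrime ℓ → ∀ σ : GQ, A.IsFrobeniusAt σ ℓ →
          ((ψ σ : Oˣ) : O) ^ 2 - a ℓ * ((ψ σ : Oˣ) : O) + (ℓ : O) = 0 := by
      intro ℓ hℓ hℓS A hA σ hF
      have := hQR ℓ hℓ hℓS A hA σ hF
      rw [hψ σ] at this
      exact mat2_scalar_quadratic _ _ _ this
    obtain ⟨ρ', h1, h2⟩ := exists_galoisRepAdic_of_character p hpO S hpS a ψ hψc hψQ
    refine ⟨ρ', h1, fun q hq hqp hunr => h2 q hq hqp fun P hP σ hσ => ?_⟩
    have hσ1 : R σ = 1 := (matOfRep_eq_one_iff ρ b σ).mpr (hunr P hP σ hσ)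
    have h00 := congrFun (congrFun hσ1 0) 0
    rw [hψ σ] at h00
    apply Units.ext
    simpa using h00

end Main

end Fermat.Agent.H31
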