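import Mathlib
import Fermat.Agent.H87.Cheb.Interfaces
import Fermat.Agent.H31.QuadRel.Main

/-!
# Bridge to the P-CHEB interface (helper31, P-ES)

`Fermat.Agent.H31.FrobeniusDense` is the statement `Fermat.Agent.H87.Cheb.ChebotarevStatement`.
-/

set_option autoImplicit false

open Polynomial

namespace Fermat.Agent.H31

theorem frobeniusDense_of_chebotarevStatement
    (h : Fermat.Agent.H87.Cheb.ChebotarevStatement) : FrobeniusDense := h

/-- The main theorem, with the P-CHEB interface as hypothesis. -/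
theorem exists_galoisRepAdic_charpoly_of_chebotarevStatement
    (hcheb : Fermat.Agent.H87.Cheb.ChebotarevStatement)
    {O : Type} [CommRing O] [IsLocalRing O] [IsDomain O]
    [IsAdicComplete (IsLocalRing.maximalIdeal O) O]
    (p : ℕ) [Fact p.Prime] (hpO : (p : O) ∈ IsLocalRing.maximalIdeal O)
    (S : Finset ℕ) (hpS : p ∈ S) (a : ℕ → O) (ρ : GaloisRepAdic O)
    (hQ : ∀ ℓ : ℕ, ℓ.Prime → ℓ ∉ S → ∀ A : ValuationSubring (AlgebraicClosure ℚ),
      A.LiesOverPrime ℓ → ∀ σ : GQ, A.IsFrobeniusAt σ ℓ →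
        ρ.ρ σ * ρ.ρ σ - a ℓ • ρ.ρ σ + (ℓ : O) • (1 : Module.End O ρ.V) = 0) :
    ∃ ρ' : GaloisRepAdic O,
      (∀ ℓ : ℕ, ℓ.Prime → ℓ ∉ S → ∀ A : ValuationSubring (AlgebraicClosure ℚ),
        A.LiesOverPrime ℓ → ∀ σ : GQ, A.IsFrobeniusAt σ ℓ →
          LinearMap.charpoly (ρ'.ρ σ) = X ^ 2 - C (a ℓ) * X + C (ℓ : O)) ∧
      (∀ q : ℕ, q.Prime → q ≠ p → ρ.IsUnramifiedAt q → ρ'.IsUnramifiedAt q) :=
  exists_galoisRepAdic_charpoly p (frobeniusDense_of_chebotarevStatement hcheb) hpO S hpS a ρ hQ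

end Fermat.Agent.H31
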