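import Mathlib
import Fermat.Prelude.Def_GaloisRep_Adic
import Fermat.Agent.H31.QuadRel.Main

/-!
# The main theorem from the Frobenius density theorem (power form) (helper31, P-ES)

`FrobPowDense` is the weak form of Chebotarev's theorem (Frobenius density theorem, existence
form): every `g ∈ Gal(ℚ̄/ℚ)` agrees on any finite extension with a power of a Frobenius lift at
a place over a prime outside any given finite set. It is implied by
`Fermat.Agent.H72.FrobPowStatement` and by full Chebotarev, and it suffices for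
`exists_galoisRepAdic_charpoly_of_frobPow`.
-/

set_option autoImplicit false

open Polynomial

namespace Fermat.Agent.H31

/-- Frobenius density theorem, existence form (one half of
`Fermat.Agent.H72.FrobPowStatement`). -/
def FrobPowDense : Prop :=
  ∀ (F : IntermediateField ℚ (AlgebraicClosure ℚ)), FiniteDimensional ℚ F →
    ∀ (g : GQ) (S : Finset ℕ),
    ∃ (ℓ : ℕ) (A : ValuationSubring (AlgebraicClosure ℚ)) (φ : GQ) (k : ℕ),
      ℓ.Prime ∧ ℓ ∉ S ∧ A.LiesOverPrime ℓ ∧ A.IsFrobeniusAt φ ℓ ∧ ∀ x ∈ F, g x = (φ ^ k) x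

theorem frobPowDense_of_frobeniusDense (h : FrobeniusDense) : FrobPowDense := by
  intro F hF g S
  obtain ⟨ℓ, A, φ, hℓ, hℓS, hA, hFr, hφ⟩ := h F hF g S
  exact ⟨ℓ, A, φ, 1, hℓ, hℓS, hA, hFr, fun x hx => by rw [pow_one, hφ x hx]⟩

/-- Powers of a Frobenius lift on roots of unity. -/
theorem frobenius_pow_rootOfUnity (A : ValuationSubring (AlgebraicClosure ℚ)) (φ : GQ) {ℓ m : ℕ}
    (hℓ : A.LiesOverPrime ℓ) (hcop : Nat.Coprime m ℓ) (hF : A.IsFrobeniusAt φ ℓ)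
    {ζ : AlgebraicClosure ℚ} (hζ : ζ ^ m = 1) (k : ℕ) : (φ ^ k) ζ = ζ ^ (ℓ ^ k) := by
  induction k with
  | zero => simp
  | succ k ih =>
    rw [pow_succ', AlgEquiv.mul_apply, ih, map_pow, frobenius_rootOfUnity A φ hℓ hcop hF hζ,
      ← pow_mul, pow_succ']

section Approx

variable {O : Type} [CommRing O] [IsLocalRing O]

/-- **Approximation by powers of Frobenius lifts.** -/
theorem exists_frobenius_pow_approx (hdense : FrobPowDense)
    (R : GQ →* Matrix (Fin 2) (Fin 2) O) (hR : MatCont R) (n : ℕ) (ζ : AlgebraicClosure ℚ)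
    (g : GQ) (S : Finset ℕ) :
    ∃ (ℓ : ℕ) (A : ValuationSubring (AlgebraicClosure ℚ)) (φ : GQ) (k : ℕ),
      ℓ.Prime ∧ ℓ ∉ S ∧ A.LiesOverPrime ℓ ∧ A.IsFrobeniusAt φ ℓ ∧
      (∀ i j, (R φ ^ k - R g) i j ∈ IsLocalRing.maximalIdeal O ^ n) ∧
      (R φ).det ^ k - (R g).det ∈ IsLocalRing.maximalIdeal O ^ n ∧ (φ ^ k) ζ = g ζ := by
  obtain ⟨L, hL, hLR⟩ := hR n
  have := hL
  have := finiteDimensional_adjoin_singleton ζ
  obtain ⟨ℓ, A, φ, k, hℓ, hℓS, hA, hF, hφ⟩ :=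
    hdense (L ⊔ IntermediateField.adjoin ℚ ({ζ} : Set (AlgebraicClosure ℚ)))
      (IntermediateField.finiteDimensional_sup L _) g S
  refine ⟨ℓ, A, φ, k, hℓ, hℓS, hA, hF, ?_, ?_, ?_⟩
  all_goals
    have hfix : ∀ x ∈ L, (g⁻¹ * φ ^ k) x = x := fun x hx => by
      have hx' : x ∈ L ⊔ IntermediateField.adjoin ℚ ({ζ} : Set (AlgebraicClosure ℚ)) :=
        (le_sup_left : L ≤ _) hx
      rw [AlgEquiv.mul_apply, ← hφ x hx']
      exact AlgEquiv.symm_apply_apply g x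
    have hh := hLR (g⁻¹ * φ ^ k) hfix
    have hmul : R φ ^ k = R g * R (g⁻¹ * φ ^ k) := by
      rw [← map_mul, mul_inv_cancel_left, map_pow]
  · intro i j
    rw [hmul]
    exact mul_sub_mem _ (R g) _ hh i j
  · rw [← Matrix.det_pow, hmul, Matrix.det_mul]
    have := det_sub_one_mem _ _ hh
    have e : (R g).det * (R (g⁻¹ * φ ^ k)).det - (R g).det
        = (R g).det * ((R (g⁻¹ * φ ^ k)).det - 1) := by ring
    rw [e]
    exact Ideal.mul_mem_left _ _ this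
  · exact (hφ ζ ((le_sup_right :
      IntermediateField.adjoin ℚ ({ζ} : Set (AlgebraicClosure ℚ)) ≤ _)
      (IntermediateField.subset_adjoin ℚ _ (Set.mem_singleton ζ)))).symm

omit [IsLocalRing O] in
/-- If a power of `M` is not scalar, neither is `M`. -/
theorem not_scalar_of_pow_not_scalar {M : Matrix (Fin 2) (Fin 2) O} {k : ℕ}
    (h : ¬ ∃ c : O, M ^ k = c • (1 : Matrix (Fin 2) (Fin 2) O)) :
    ¬ ∃ c : O, M = c • (1 : Matrix (Fin 2) (Fin 2) O) := by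
  rintro ⟨c, hc⟩
  exact h ⟨c ^ k, by rw [hc, _root_.smul_pow, one_pow]⟩

variable [IsDomain O]

/-- **Core (power form).** If the representation is not scalar, a scalar Frobenius `α`
satisfies `α² = ℓ`. -/
theorem sq_eq_of_scalar_frobenius_of_frobPow (hdense : FrobPowDense) (p : ℕ) [Fact p.Prime]
    [IsHausdorff (IsLocalRing.maximalIdeal O) O] (hpO : (p : O) ∈ IsLocalRing.maximalIdeal O)
    (R : GQ →* Matrix (Fin 2) (Fin 2) O) (hR : MatCont R) (S : Finset ℕ) (hpS : p ∈ S)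
    (a : ℕ → O) (hQ : MatQuadRel R S a) (g₁ : GQ)
    (hg₁ : ¬ ∃ c : O, R g₁ = c • (1 : Matrix (Fin 2) (Fin 2) O))
    {ℓ : ℕ} (hℓ : ℓ.Prime) (hℓS : ℓ ∉ S) {A : ValuationSubring (AlgebraicClosure ℚ)}
    (hA : A.LiesOverPrime ℓ) {σ : GQ} (hF : A.IsFrobeniusAt σ ℓ) {α : O}
    (hα : R σ = α • (1 : Matrix (Fin 2) (Fin 2) O)) : α ^ 2 = (ℓ : O) := by
  set I := IsLocalRing.maximalIdeal O with hI
  have hp : p.Prime := Fact.out
  obtain ⟨n₀, hn₀⟩ := exists_nonScalarMod I hg₁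
  have hαu : IsUnit α := isUnit_of_map_eq_smul_one R σ hα
  have hD : IsUnit (R g₁).det := isUnit_det_map R g₁
  have hne : ∀ {ℓ' : ℕ}, ℓ'.Prime → ℓ' ∉ S → ∀ n : ℕ, Nat.Coprime (p ^ n) ℓ' := by
    intro ℓ' hℓ' hℓ'S n
    have : ℓ' ≠ p := fun h => hℓ'S (h ▸ hpS)
    exact Nat.Coprime.pow_left n ((Nat.coprime_primes hp hℓ').mpr (Ne.symm this))
  have key : ∀ n, n₀ ≤ n → α ^ 2 - (ℓ : O) ∈ I ^ n := by
    intro n hn
    obtain ⟨ζ, hζ⟩ := HasEnoughRootsOfUnity.exists_primitiveRoot (AlgebraicClosure ℚ) (p ^ n)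
    obtain ⟨ℓ₁, A₁, φ₁, k₁, hℓ₁, hℓ₁S, hA₁, hF₁, hent₁, hdet₁, hζ₁⟩ :=
      exists_frobenius_pow_approx hdense R hR n ζ g₁ S
    obtain ⟨ℓ₂, A₂, φ₂, k₂, hℓ₂, hℓ₂S, hA₂, hF₂, hent₂, hdet₂, hζ₂⟩ :=
      exists_frobenius_pow_approx hdense R hR n ζ (σ * g₁) S
    have hns : NonScalarMod (I ^ n) (R g₁) := hn₀.mono (Ideal.pow_le_pow_right hn)
    have hns₁ : NonScalarMod (I ^ n) (R φ₁ ^ k₁) := hns.congr hent₁
    have hσg : R (σ * g₁) = α • R g₁ := by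
      rw [map_mul, hα, Matrix.smul_mul, one_mul]
    have hns₂ : NonScalarMod (I ^ n) (R φ₂ ^ k₂) := by
      refine NonScalarMod.congr ?_ hent₂
      rw [hσg]
      exact hns.unit_smul hαu
    have hd₁ : (R φ₁).det = (ℓ₁ : O) :=
      ((mat2_scalar_or_trace_det _ _ _ (hQ ℓ₁ hℓ₁ hℓ₁S A₁ hA₁ φ₁ hF₁)).resolve_left
        (not_scalar_of_pow_not_scalar hns₁.not_scalar)).2
    have hd₂ : (R φ₂).det = (ℓ₂ : O) :=
      ((mat2_scalar_or_trace_det _ _ _ (hQ ℓ₂ hℓ₂ hℓ₂S A₂ hA₂ φ₂ hF₂)).resolve_left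
        (not_scalar_of_pow_not_scalar hns₂.not_scalar)).2
    have hdσg : (R (σ * g₁)).det = α ^ 2 * (R g₁).det := by
      rw [hσg, Matrix.det_smul]
      simp
    -- roots of unity
    have e₁ : (φ₁ ^ k₁) ζ = ζ ^ (ℓ₁ ^ k₁) :=
      frobenius_pow_rootOfUnity A₁ φ₁ hA₁ (hne hℓ₁ hℓ₁S n) hF₁ hζ.pow_eq_one k₁
    have e₂ : (φ₂ ^ k₂) ζ = ζ ^ (ℓ₂ ^ k₂) :=
      frobenius_pow_rootOfUnity A₂ φ₂ hA₂ (hne hℓ₂ hℓ₂S n) hF₂ hζ.pow_eq_one k₂
    have e : σ ζ = ζ ^ ℓ := frobenius_rootOfUnity A σ hA (hne hℓ hℓS n) hF hζ.pow_eq_one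
    have e₃ : ζ ^ (ℓ * ℓ₁ ^ k₁) = ζ ^ (ℓ₂ ^ k₂) := by
      rw [← e₂, hζ₂, AlgEquiv.mul_apply, ← hζ₁, e₁, map_pow, e, ← pow_mul]
    have hcong : ((ℓ₂ ^ k₂ : ℕ) : O) - ((ℓ * ℓ₁ ^ k₁ : ℕ) : O) ∈ I ^ n :=
      natCast_sub_mem_of_pow_eq p I hpO hζ e₃
    rw [hd₁] at hdet₁
    rw [hd₂, hdσg] at hdet₂
    have hfin : (α ^ 2 - (ℓ : O)) * (R g₁).det ∈ I ^ n := by
      have : (α ^ 2 - (ℓ : O)) * (R g₁).det
          = (((ℓ₂ ^ k₂ : ℕ) : O) - ((ℓ * ℓ₁ ^ k₁ : ℕ) : O))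
            - ((ℓ₂ : O) ^ k₂ - α ^ 2 * (R g₁).det)
            + (ℓ : O) * ((ℓ₁ : O) ^ k₁ - (R g₁).det) := by
        push_cast
        ring
      rw [this]
      exact Ideal.add_mem _ (Ideal.sub_mem _ hcong hdet₂) (Ideal.mul_mem_left _ _ hdet₁)
    obtain ⟨u, hu⟩ := hD
    have := Ideal.mul_mem_right ((u⁻¹ : Oˣ) : O) _ hfin
    rwa [← hu, mul_assoc, Units.mul_inv, mul_one] at this
  have hall : ∀ n, α ^ 2 - (ℓ : O) ∈ I ^ n := by
    intro n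
    rcases le_total n₀ n with h | h
    · exact key n h
    · exact Ideal.pow_le_pow_right h (key n₀ le_rfl)
  exact sub_eq_zero.mp (eq_zero_of_forall_mem_pow I hall)

/-- In the non-scalar case every Frobenius lift outside `S` has trace `a_ℓ` and
determinant `ℓ` (power form of the density hypothesis). -/
theorem trace_det_of_matQuadRel_of_frobPow (hdense : FrobPowDense) (p : ℕ) [Fact p.Prime]
    [IsHausdorff (IsLocalRing.maximalIdeal O) O] (hpO : (p : O) ∈ IsLocalRing.maximalIdeal O)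
    (R : GQ →* Matrix (Fin 2) (Fin 2) O) (hR : MatCont R) (S : Finset ℕ) (hpS : p ∈ S)
    (a : ℕ → O) (hQ : MatQuadRel R S a) (g₁ : GQ)
    (hg₁ : ¬ ∃ c : O, R g₁ = c • (1 : Matrix (Fin 2) (Fin 2) O))
    {ℓ : ℕ} (hℓ : ℓ.Prime) (hℓS : ℓ ∉ S) {A : ValuationSubring (AlgebraicClosure ℚ)}
    (hA : A.LiesOverPrime ℓ) {σ : GQ} (hF : A.IsFrobeniusAt σ ℓ) :
    (R σ).trace = a ℓ ∧ (R σ).det = (ℓ : O) := by
  have hrel := hQ ℓ hℓ hℓS A hA σ hF
  rcases mat2_scalar_or_trace_det _ _ _ hrel with ⟨α, hα⟩ | h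
  · have hsq := sq_eq_of_scalar_frobenius_of_frobPow hdense p hpO R hR S hpS a hQ g₁ hg₁
      hℓ hℓS hA hF hα
    have hq : α ^ 2 - a ℓ * α + (ℓ : O) = 0 := by
      rw [hα] at hrel
      exact mat2_scalar_quadratic _ _ _ hrel
    have hℓp : ℓ ≠ p := fun h => hℓS (h ▸ hpS)
    have hℓ0 : (ℓ : O) ≠ 0 :=
      (isUnit_natCast_of_coprime hpO
        ((Nat.coprime_primes hℓ (Fact.out : p.Prime)).mpr hℓp)).ne_zero
    exact mat2_trace_det_of_scalar _ _ _ _ hα hsq hq hℓ0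
  · exact h

end Approx

section Main

variable {O : Type} [CommRing O] [IsLocalRing O] [IsDomain O]
  [IsAdicComplete (IsLocalRing.maximalIdeal O) O]

/-- **Main theorem, power form.** From the quadratic Frobenius relation to the characteristic
polynomial, assuming only the Frobenius density theorem (existence form). -/
theorem exists_galoisRepAdic_charpoly_of_frobPow (p : ℕ) [Fact p.Prime] (hdense : FrobPowDense)
    (hpO : (p : O) ∈ IsLocalRing.maximalIdeal O) (S : Finset ℕ) (hpS : p ∈ S)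
    (a : ℕ → O) (ρ : GaloisRepAdic O)
    (hQ : ∀ ℓ : ℕ, ℓ.Prime → ℓ ∉ S → ∀ A : ValuationSubring (AlgebraicClosure ℚ),
      A.LiesOverPrime ℓ → ∀ σ : GQ, A.IsFrobeniusAt σ ℓ →
        ρ.ρ σ * ρ.ρ σ - a ℓ • ρ.ρ σ + (ℓ : O) • (1 : Module.End O ρ.V) = 0) :
    ∃ ρ' : GaloisRepAdic O,
      (∀ ℓ : ℕ, ℓ.Prime → ℓ ∉ S → ∀ A : ValuationSubring (AlgebraicClosure ℚ),
        A.LiesOverPrime ℓ → ∀ σ : GQ, A.IsFrobeniusAt σ ℓ →
          LinearMap.charpoly (ρ'.ρ σ) = X ^ 2 - C (a ℓ) * X + C (ℓ : O)) ∧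
      (∀ q : ℕ, q.Prime → q ≠ p → ρ.IsUnramifiedAt q → ρ'.IsUnramifiedAt q) := by
  set b : Module.Basis (Fin 2) O ρ.V := Module.finBasisOfFinrankEq O ρ.V ρ.finrank_eq with hb
  set R := matOfRep ρ b with hRdef
  have hR : MatCont R := matCont_matOfRep ρ b
  have hQR : MatQuadRel R S a := fun ℓ hℓ hℓS A hA σ hF =>
    matOfRep_quadratic ρ b σ _ _ (hQ ℓ hℓ hℓS A hA σ hF)
  by_cases hns : ∃ g₁ : GQ, ¬ ∃ c : O, R g₁ = c • (1 : Matrix (Fin 2) (Fin 2) O)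
  · obtain ⟨g₁, hg₁⟩ := hns
    refine ⟨ρ, ?_, fun q _ _ h => h⟩
    intro ℓ hℓ hℓS A hA σ hF
    obtain ⟨ht, hd⟩ := trace_det_of_matQuadRel_of_frobPow hdense p hpO R hR S hpS a hQR g₁ hg₁
      hℓ hℓS hA hF
    rw [← charpoly_matOfRep ρ b σ]
    exact mat2_charpoly_of_trace_det _ _ _ ht hd
  · push Not at hns
    obtain ⟨ψ, hψ⟩ := exists_character_of_scalar R hns
    have hψc : ∀ n : ℕ, ∃ L : IntermediateField ℚ (AlgebraicClosure ℚ), FiniteDimensional ℚ L ∧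
        ∀ σ : GQ, (∀ x ∈ L, σ x = x) →
          ((ψ σ : Oˣ) : O) - 1 ∈ IsLocalRing.maximalIdeal O ^ n := by
      intro n
      obtain ⟨L, hL, h⟩ := hR n
      refine ⟨L, hL, fun σ hσ => ?_⟩
      have := h σ hσ 0 0
      rw [hψ σ] at this
      simpa using this
    have hψQ : ∀ ℓ : ℕ, ℓ.Prime → ℓ ∉ S → ∀ A : ValuationSubring (AlgebraicClosure ℚ),
        A.LiesOverPrime ℓ → ∀ σ : GQ, A.IsFrobeniusAt σ ℓ →
          ((ψ σ : Oˣ) : O) ^ 2 - a ℓ * ((ψ σ : Oˣ) : O) + (ℓ : O) = 0 := by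
      intro ℓ hℓ hℓS A hA σ hF
      have := hQR ℓ hℓ hℓS A hA σ hF
      rw [hψ σ] at this
      exact mat2_scalar_quadratic _ _ _ this
    obtain ⟨ρ', h1, h2⟩ := exists_galoisRepAdic_of_character p hpO S hpS a ψ hψc hψQ
    refine ⟨ρ', h1, fun q hq hqp hunr => h2 q hq hqp fun P hP σ hσ => ?_⟩
    have hσ1 : R σ = 1 := (matOfRep_eq_one_iff ρ b σ).mpr (hunr P hP σ hσ)
    have h00 := congrFun (congrFun hσ1 0) 0
    rw [hψ σ] at h00
    apply Units.ext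
    simpa using h00

end Main

end Fermat.Agent.H31
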