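import Mathlib
import Fermat.Prelude.Def_GaloisRep_Adic
import Fermat.Agent.H31.QuadRel.Pow
import Fermat.Agent.H72.FDT.Interfaces

/-!
# Bridge: the main theorem against `Fermat.Agent.H72.FrobPowStatement` (helper31, P-ES)

`exists_galoisRepAdic_charpoly_of_frobPowStatement`: from the quadratic Frobenius relation
(Eichler--Shimura) to the characteristic polynomial `X² - a_ℓ X + ℓ`, assuming only the
Frobenius density theorem in the form targeted by project P-FDT.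
-/

set_option autoImplicit false

open Polynomial

namespace Fermat.Agent.H31

theorem frobPowDense_of_frobPowStatement (h : Fermat.Agent.H72.FrobPowStatement) :
    FrobPowDense := by
  intro F hF g S
  obtain ⟨ℓ, A, φ, k, _, hℓ, hℓS, hA, hFr, hφ, _⟩ := h F hF g S
  exact ⟨ℓ, A, φ, k, hℓ, hℓS, hA, hFr, hφ⟩

/-- **Main theorem against the P-FDT interface.** -/
theorem exists_galoisRepAdic_charpoly_of_frobPowStatement
    {O : Type} [CommRing O] [IsLocalRing O] [IsDomain O]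
    [IsAdicComplete (IsLocalRing.maximalIdeal O) O]
    (p : ℕ) [Fact p.Prime] (hfdt : Fermat.Agent.H72.FrobPowStatement)
    (hpO : (p : O) ∈ IsLocalRing.maximalIdeal O) (S : Finset ℕ) (hpS : p ∈ S)
    (a : ℕ → O) (ρ : GaloisRepAdic O)
    (hQ : ∀ ℓ : ℕ, ℓ.Prime → ℓ ∉ S → ∀ A : ValuationSubring (AlgebraicClosure ℚ),
      A.LiesOverPrime ℓ → ∀ σ : GQ, A.IsFrobeniusAt σ ℓ →
        ρ.ρ σ * ρ.ρ σ - a ℓ • ρ.ρ σ + (ℓ : O) • (1 : Module.End O ρ.V) = 0) :
    ∃ ρ' : GaloisRepAdic O,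
      (∀ ℓ : ℕ, ℓ.Prime → ℓ ∉ S → ∀ A : ValuationSubring (AlgebraicClosure ℚ),
        A.LiesOverPrime ℓ → ∀ σ : GQ, A.IsFrobeniusAt σ ℓ →
          LinearMap.charpoly (ρ'.ρ σ) = X ^ 2 - C (a ℓ) * X + C (ℓ : O)) ∧
      (∀ q : ℕ, q.Prime → q ≠ p → ρ.IsUnramifiedAt q → ρ'.IsUnramifiedAt q) :=
  exists_galoisRepAdic_charpoly_of_frobPow p (frobPowDense_of_frobPowStatement hfdt)
    hpO S hpS a ρ hQ

end Fermat.Agent.H31
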