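import Mathlib
import Fermat.Prelude.Def_GaloisRep_Adic
import Fermat.Agent.H31.QuadRel.PowBridge
import Fermat.Agent.H3.FrobPrelude

/-!
# The main theorem, unconditionally (helper31, P-ES)

`exists_galoisRepAdic_charpoly_uncond`: from the quadratic Frobenius relation
(Eichler--Shimura) satisfied by a rank-two `GaloisRepAdic O` to a `GaloisRepAdic O` with
Frobenius characteristic polynomials `X² - a_ℓ X + ℓ`, keeping unramifiedness away from `p`.
The density input is the Frobenius density theorem proved in `Fermat.Agent.H3.FrobPrelude`.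
-/

set_option autoImplicit false

open Polynomial

namespace Fermat.Agent.H31

/-- The Frobenius density theorem (existence form), unconditionally. -/
theorem frobPowDense : FrobPowDense :=
  frobPowDense_of_frobPowStatement Fermat.Agent.H3.Frob.frobPow

/-- **Main theorem, unconditional.** -/
theorem exists_galoisRepAdic_charpoly_uncond
    {O : Type} [CommRing O] [IsLocalRing O] [IsDomain O]
    [IsAdicComplete (IsLocalRing.maximalIdeal O) O]
    (p : ℕ) [Fact p.Prime]
    (hpO : (p : O) ∈ IsLocalRing.maximalIdeal O) (S : Finset ℕ) (hpS : p ∈ S)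
    (a : ℕ → O) (ρ : GaloisRepAdic O)
    (hQ : ∀ ℓ : ℕ, ℓ.Prime → ℓ ∉ S → ∀ A : ValuationSubring (AlgebraicClosure ℚ),
      A.LiesOverPrime ℓ → ∀ σ : GQ, A.IsFrobeniusAt σ ℓ →
        ρ.ρ σ * ρ.ρ σ - a ℓ • ρ.ρ σ + (ℓ : O) • (1 : Module.End O ρ.V) = 0) :
    ∃ ρ' : GaloisRepAdic O,
      (∀ ℓ : ℕ, ℓ.Prime → ℓ ∉ S → ∀ A : ValuationSubring (AlgebraicClosure ℚ),
        A.LiesOverPrime ℓ → ∀ σ : GQ, A.IsFrobeniusAt σ ℓ →
          LinearMap.charpoly (ρ'.ρ σ) = X ^ 2 - C (a ℓ) * X + C (ℓ : O)) ∧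
      (∀ q : ℕ, q.Prime → q ≠ p → ρ.IsUnramifiedAt q → ρ'.IsUnramifiedAt q) :=
  exists_galoisRepAdic_charpoly_of_frobPow p frobPowDense hpO S hpS a ρ hQ

end Fermat.Agent.H31
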